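/-
S55 / block LOC-C (general, any group with a level system) : modules with trivial action,
characters `H^1(G, ℚ/ℤ)`, the class `δχ ∈ H^2(G, ℤ)` and the product
`cup m χ = (n ↦ n • m)_* (δ χ) ∈ H^2(G, M)` for an invariant element `m` of a module `M`.
Definitions and defining lemmas only.
-/
import Fermat.Agent.S55.Coh.LESExact
import Fermat.Agent.S55.Coh.H0
import Fermat.Agent.S55.Coh.SetDefs
import Fermat.Agent.S55.Arith.Defs

set_option autoImplicit false

namespace Fermat.Agent.S55

/-! ### Modules with trivial action -/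

/-- The abelian group `B` with the trivial action of every group (a one-field structure, so that
no other action can leak in). -/
structure TrivMod (B : Type) : Type where
  /-- Regard an element of `B` as an element of `TrivMod B`. -/
  of ::
  /-- The underlying element. -/
  val : B

namespace TrivMod

variable {B C : Type}

@[ext] theorem ext {x y : TrivMod B} (h : x.val = y.val) : x = y := by
  cases x; cases y; exact congrArg of h

theorem val_injective : Function.Injective (val : TrivMod B → B) := fun _ _ h => ext h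

instance [AddCommGroup B] : Zero (TrivMod B) := ⟨of 0⟩
instance [AddCommGroup B] : Add (TrivMod B) := ⟨fun x y => of (x.val + y.val)⟩
instance [AddCommGroup B] : Neg (TrivMod B) := ⟨fun x => of (-x.val)⟩
instance [AddCommGroup B] : Sub (TrivMod B) := ⟨fun x y => of (x.val - y.val)⟩
instance [AddCommGroup B] : SMul ℕ (TrivMod B) := ⟨fun n x => of (n • x.val)⟩
instance [AddCommGroup B] : SMul ℤ (TrivMod B) := ⟨fun n x => of (n • x.val)⟩

instance [AddCommGroup B] : AddCommGroup (TrivMod B) :=
  Function.Injective.addCommGroup (val : TrivMod B → B) val_injective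
    rfl (fun _ _ => rfl) (fun _ => rfl) (fun _ _ => rfl) (fun _ _ => rfl) (fun _ _ => rfl)

@[simp] theorem val_of (b : B) : (of b).val = b := rfl
@[simp] theorem val_zero [AddCommGroup B] : (0 : TrivMod B).val = 0 := rfl
@[simp] theorem val_add [AddCommGroup B] (x y : TrivMod B) : (x + y).val = x.val + y.val := rfl
@[simp] theorem val_neg [AddCommGroup B] (x : TrivMod B) : (-x).val = -x.val := rfl
@[simp] theorem val_sub [AddCommGroup B] (x y : TrivMod B) : (x - y).val = x.val - y.val := rfl
@[simp] theorem val_nsmul [AddCommGroup B] (n : ℕ) (x : TrivMod B) : (n • x).val = n • x.val := rfl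
@[simp] theorem val_zsmul [AddCommGroup B] (n : ℤ) (x : TrivMod B) : (n • x).val = n • x.val := rfl

/-- `TrivMod B` is additively `B`. -/
def addEquiv [AddCommGroup B] : TrivMod B ≃+ B where
  toFun := val
  invFun := of
  left_inv _ := rfl
  right_inv _ := rfl
  map_add' _ _ := rfl

instance {G : Type} [Group G] [AddCommGroup B] : DistribMulAction G (TrivMod B) where
  smul _ b := b
  one_smul _ := rfl
  mul_smul _ _ _ := rfl
  smul_zero _ := rfl
  smul_add _ _ _ := rfl

@[simp] theorem smul_def {G : Type} [Group G] [AddCommGroup B] (g : G) (b : TrivMod B) :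
    g • b = b := rfl

instance {G : Type} [Group G] (𝓝 : LevelSys G) [AddCommGroup B] : Smooth 𝓝 (TrivMod B) where
  exists_fix _ := by
    obtain ⟨N, hN⟩ := 𝓝.nonempty
    exact ⟨N, hN, fun _ _ => rfl⟩

/-- Functoriality. -/
def map (G : Type) [Group G] [AddCommGroup B] [AddCommGroup C] (φ : B →+ C) :
    TrivMod B →+[G] TrivMod C where
  toFun x := of (φ x.val)
  map_smul' _ _ := rfl
  map_zero' := ext (map_zero φ)
  map_add' x y := ext (map_add φ x.val y.val)

@[simp] theorem val_map (G : Type) [Group G] [AddCommGroup B] [AddCommGroup C] (φ : B →+ C)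
    (x : TrivMod B) : (map G φ x).val = φ x.val := rfl

end TrivMod

/-- The projection `ℚ → ℚ/ℤ`. -/
def toQZ : ℚ →+ QZ := QuotientAddGroup.mk' _

theorem toQZ_surjective : Function.Surjective toQZ := QuotientAddGroup.mk'_surjective _

theorem toQZ_eq_zero_iff (x : ℚ) : toQZ x = 0 ↔ ∃ n : ℤ, (n : ℚ) = x := by
  unfold toQZ
  rw [QuotientAddGroup.mk'_apply, QuotientAddGroup.eq_zero_iff]
  exact AddMonoidHom.mem_range

/-- `0 → ℤ → ℚ → ℚ/ℤ → 0` with trivial action. -/
theorem shortExact_ZQ (G : Type) [Group G] :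
    ShortExact (TrivMod.map G (Int.castAddHom ℚ)) (TrivMod.map G toQZ) where
  inj x y h := by
    have h1 : ((x.val : ℤ) : ℚ) = (y.val : ℚ) := congrArg TrivMod.val h
    exact TrivMod.ext (by exact_mod_cast h1)
  exact b := by
    constructor
    · intro h
      have h1 : toQZ b.val = 0 := congrArg TrivMod.val h
      obtain ⟨n, hn⟩ := (toQZ_eq_zero_iff _).1 h1
      exact ⟨TrivMod.of n, TrivMod.ext hn⟩
    · rintro ⟨a, rfl⟩
      exact TrivMod.ext ((toQZ_eq_zero_iff _).2 ⟨a.val, rfl⟩)
  surj c := by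
    obtain ⟨x, hx⟩ := toQZ_surjective c.val
    exact ⟨TrivMod.of x, TrivMod.ext hx⟩

variable {G : Type} [Group G]

/-- The equivariant map `ℤ → M`, `n ↦ n • m`, attached to an invariant element `m`. -/
def zmap {M : Type} [AddCommGroup M] [DistribMulAction G M] (m : inv0 G M) :
    TrivMod ℤ →+[G] M where
  toFun n := n.val • (m : M)
  map_smul' g n := by
    show n.val • (m : M) = g • (n.val • (m : M))
    rw [smul_comm, (mem_inv0.1 m.2 g)]
  map_zero' := zero_smul _ _
  map_add' x y := add_smul _ _ _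

@[simp] theorem zmap_apply {M : Type} [AddCommGroup M] [DistribMulAction G M] (m : inv0 G M)
    (n : TrivMod ℤ) : zmap m n = n.val • (m : M) := rfl

/-- The group of (smooth) characters `H^1(G, ℚ/ℤ)`. -/
abbrev Chr (𝓝 : LevelSys G) : Type := Hsm 𝓝 (TrivMod QZ) 1

/-- `δ : H^1(G, ℚ/ℤ) → H^2(G, ℤ)`. -/
noncomputable def dchi (𝓝 : LevelSys G) : Chr 𝓝 →+ Hsm 𝓝 (TrivMod ℤ) 2 :=
  Hsm.delta (shortExact_ZQ G) 1

/-- `cup m χ = m ∪ δχ ∈ H^2(G, M)`. -/
noncomputable def cup (𝓝 : LevelSys G) {M : Type} [AddCommGroup M] [DistribMulAction G M]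
    (m : inv0 G M) : Chr 𝓝 →+ Hsm 𝓝 M 2 :=
  (Hsm.map (zmap m) 2).comp (dchi 𝓝)

theorem cup_apply (𝓝 : LevelSys G) {M : Type} [AddCommGroup M] [DistribMulAction G M]
    (m : inv0 G M) (χ : Chr 𝓝) : cup 𝓝 m χ = Hsm.map (zmap m) 2 (dchi 𝓝 χ) := rfl

/-- The value of a 1-cocycle with values in a trivial module. -/
def Zsm.ev1 (𝓝 : LevelSys G) (B : Type) [AddCommGroup B] (g : G) :
    Zsm 𝓝 (TrivMod B) 1 →+ B where
  toFun z := ((z : (Fin 1 → G) → TrivMod B) fun _ => g).val
  map_zero' := rfl
  map_add' _ _ := rfl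

/-- The value `χ(g)` of a character. -/
def Chr.ev (𝓝 : LevelSys G) (g : G) : Chr 𝓝 →+ QZ :=
  Hsm.lift (Zsm.ev1 𝓝 QZ g) (by
    intro z hz
    obtain ⟨f, -, hf⟩ := hz
    show ((z : (Fin 1 → G) → TrivMod QZ) fun _ => g).val = 0
    rw [← hf, dd_zero_apply]
    simp)

end Fermat.Agent.S55
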