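/-
S55 / block LOC-C, task LOC-C01 : formal properties of `cup` (additivity in the invariant element,
naturality in the module).
-/
import Fermat.Agent.S55.Loc.Coh.CupDefs

set_option autoImplicit false

namespace Fermat.Agent.S55

variable {G : Type} [Group G] {𝓝 : LevelSys G}

variable {M M' : Type} [AddCommGroup M] [DistribMulAction G M] [AddCommGroup M']
  [DistribMulAction G M']

theorem cup_add_left (m m' : inv0 G M) (χ : Chr 𝓝) :
    cup 𝓝 (m + m') χ = cup 𝓝 m χ + cup 𝓝 m' χ := by
  rw [cup_apply, cup_apply, cup_apply]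
  refine Hsm.map_add' (fun a => ?_) 2 _
  rw [zmap_apply, zmap_apply, zmap_apply, AddSubgroup.coe_add, smul_add]

theorem cup_zero_left (χ : Chr 𝓝) : cup 𝓝 (0 : inv0 G M) χ = 0 := by
  rw [cup_apply]
  refine Hsm.map_zero' (fun a => ?_) 2 _
  rw [zmap_apply, AddSubgroup.coe_zero, smul_zero]

theorem cup_neg_left (m : inv0 G M) (χ : Chr 𝓝) : cup 𝓝 (-m) χ = - cup 𝓝 m χ := by
  rw [cup_apply, cup_apply]
  refine Hsm.map_neg' (fun a => ?_) 2 _
  rw [zmap_apply, zmap_apply, AddSubgroup.coe_neg, smul_neg]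

/-- Multiplication by `k` on a module, as an equivariant map. -/
private def zsmulHom (k : ℤ) : M →+[G] M where
  toFun a := k • a
  map_smul' g a := by
    show k • (g • a) = g • (k • a)
    rw [smul_comm]
  map_zero' := smul_zero _
  map_add' a b := smul_add _ _ _

theorem cup_zsmul_left (k : ℤ) (m : inv0 G M) (χ : Chr 𝓝) :
    cup 𝓝 (k • m) χ = k • cup 𝓝 m χ := by
  rw [cup_apply, cup_apply,
    Hsm.map_comp' (ψ := zsmulHom (G := G) (M := M) k) (φ := zmap m) (fun a => ?_) 2,
    Hsm.map_zsmul' k (fun _ => rfl)]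
  show zmap (k • m) a = k • zmap m a
  rw [zmap_apply, zmap_apply, AddSubgroup.coe_zsmul, smul_comm]

/-- Naturality in the module: this contains the compatibility with `res` (`pull`) and the
projection formula for `cor` (`push`, `sum`). -/
theorem map_cup (φ : M →+[G] M') (m : inv0 G M) (χ : Chr 𝓝) :
    Hsm.map φ 2 (cup 𝓝 m χ) = cup 𝓝 (inv0.map φ m) χ := by
  rw [cup_apply, cup_apply]
  refine (Hsm.map_comp' (fun a => ?_) 2 _).symm
  rw [zmap_apply, zmap_apply, inv0.coe_map, map_zsmul]

end Fermat.Agent.S55
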