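/-
S55 / block LOC-C (general) : characters `Chr 𝓝 = H^1(G, ℚ/ℤ)` as functions on `G`.
`Chr.ev_mul`, `Chr.ext`, `Chr.ker`, `Chr.ofFun`.
-/
import Fermat.Agent.S55.Loc.Coh.CupDefs

set_option autoImplicit false

namespace Fermat.Agent.S55

variable {G : Type} [Group G]

/-- The differential in degree one, explicitly. -/
theorem dd_one_apply {A : Type} [AddCommGroup A] [DistribMulAction G A] (f : (Fin 1 → G) → A)
    (x : Fin 2 → G) :
    dd A 1 f x = x 0 • f (fun _ => x 1) - f (fun _ => x 0 * x 1) + f (fun _ => x 0) := by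
  have e1 : (fun i : Fin 1 => x i.succ) = fun _ => x 1 := by
    funext i; fin_cases i; rfl
  have e2 : Fin.contractNth (0 : Fin 2) (· * ·) x = fun _ => x 0 * x 1 := by
    funext i; fin_cases i; simp [Fin.contractNth]
  have e3 : Fin.contractNth (1 : Fin 2) (· * ·) x = fun _ => x 0 := by
    funext i; fin_cases i; simp [Fin.contractNth]
  rw [dd_apply, Fin.sum_univ_two, e1, e2, e3]
  simp
  abel

variable {𝓝 : LevelSys G}

namespace Chr

theorem ev_mk (g : G) (z : Zsm 𝓝 (TrivMod QZ) 1) :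
    Chr.ev 𝓝 g (Hsm.mk 𝓝 (TrivMod QZ) 1 z) = ((z : (Fin 1 → G) → TrivMod QZ) fun _ => g).val :=
  rfl

theorem ev_mul (χ : Chr 𝓝) (g h : G) : Chr.ev 𝓝 (g * h) χ = Chr.ev 𝓝 g χ + Chr.ev 𝓝 h χ := by
  induction χ using Hsm.induction_on with
  | _ z =>
    rw [ev_mk, ev_mk, ev_mk]
    have h1 := congrFun (dd_eq_zero_of_mem_Zsm z.2) ![g, h]
    rw [dd_one_apply] at h1
    have h2 := congrArg TrivMod.val h1
    simp only [Matrix.cons_val_zero, Matrix.cons_val_one, TrivMod.smul_def,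
      TrivMod.val_add, TrivMod.val_sub, Pi.zero_apply, TrivMod.val_zero] at h2
    have h3 := sub_eq_zero.1 ((sub_add_eq_add_sub _ _ _).symm.trans h2 |>.symm ▸ rfl :
      ((z : (Fin 1 → G) → TrivMod QZ) fun _ => h).val +
        ((z : (Fin 1 → G) → TrivMod QZ) fun _ => g).val -
        ((z : (Fin 1 → G) → TrivMod QZ) fun _ => g * h).val = 0)
    rw [← h3, add_comm]

theorem ev_one (χ : Chr 𝓝) : Chr.ev 𝓝 1 χ = 0 := by
  have h := ev_mul χ 1 1
  rw [mul_one] at h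
  exact add_eq_left.1 h.symm

theorem ev_inv (χ : Chr 𝓝) (g : G) : Chr.ev 𝓝 g⁻¹ χ = - Chr.ev 𝓝 g χ := by
  have h := ev_mul χ g g⁻¹
  rw [mul_inv_cancel, ev_one] at h
  exact (neg_eq_of_add_eq_zero_right h.symm).symm

theorem ev_pow (χ : Chr 𝓝) (g : G) (k : ℕ) : Chr.ev 𝓝 (g ^ k) χ = k • Chr.ev 𝓝 g χ := by
  induction k with
  | zero => rw [pow_zero, ev_one, zero_smul]
  | succ k ih => rw [pow_succ, ev_mul, ih, succ_nsmul]

/-- A character is determined by its values. -/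
theorem ext {χ χ' : Chr 𝓝} (h : ∀ g, Chr.ev 𝓝 g χ = Chr.ev 𝓝 g χ') : χ = χ' := by
  induction χ using Hsm.induction_on with
  | _ z =>
    induction χ' using Hsm.induction_on with
    | _ z' =>
      congr 1
      apply Subtype.ext
      funext x
      have hx : x = fun _ => x 0 := by
        funext i; fin_cases i; rfl
      rw [hx]
      exact TrivMod.ext (h (x 0))

theorem eq_zero_iff {χ : Chr 𝓝} : χ = 0 ↔ ∀ g, Chr.ev 𝓝 g χ = 0 :=
  ⟨fun h g => by rw [h, map_zero], fun h => ext fun g => by rw [h g, map_zero]⟩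

/-- A character is trivial on a member of the level system. -/
theorem exists_level (χ : Chr 𝓝) : ∃ N ∈ 𝓝.carrier, ∀ n ∈ N, Chr.ev 𝓝 n χ = 0 := by
  have key : ∃ N ∈ 𝓝.carrier, ∀ n ∈ N, Chr.ev 𝓝 n χ = Chr.ev 𝓝 1 χ := by
    induction χ using Hsm.induction_on with
    | _ z =>
      obtain ⟨N, hN, h⟩ := z.2.1
      refine ⟨N, hN, fun n hn => ?_⟩
      rw [ev_mk, ev_mk]
      congr 1
      exact (h (fun _ => 1) (fun _ => n) (fun _ => by simpa using hn)).symm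
  obtain ⟨N, hN, h⟩ := key
  exact ⟨N, hN, fun n hn => by rw [h n hn, ev_one]⟩

/-- The kernel of a character. -/
def ker (χ : Chr 𝓝) : Subgroup G where
  carrier := {g | Chr.ev 𝓝 g χ = 0}
  one_mem' := ev_one χ
  mul_mem' := fun {a b} ha hb => by
    show Chr.ev 𝓝 (a * b) χ = 0
    rw [ev_mul, show Chr.ev 𝓝 a χ = 0 from ha, show Chr.ev 𝓝 b χ = 0 from hb, add_zero]
  inv_mem' := fun {a} ha => by
    show Chr.ev 𝓝 a⁻¹ χ = 0
    rw [ev_inv, show Chr.ev 𝓝 a χ = 0 from ha, neg_zero]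

theorem mem_ker {χ : Chr 𝓝} {g : G} : g ∈ ker χ ↔ Chr.ev 𝓝 g χ = 0 := Iff.rfl

theorem isOpen_ker (χ : Chr 𝓝) : 𝓝.IsOpen (ker χ) := by
  obtain ⟨N, hN, h⟩ := exists_level χ
  exact ⟨N, hN, fun n hn => h n hn⟩

instance (χ : Chr 𝓝) : (ker χ).Normal where
  conj_mem n hn g := by
    show Chr.ev 𝓝 (g * n * g⁻¹) χ = 0
    rw [ev_mul, ev_mul, ev_inv, show Chr.ev 𝓝 n χ = 0 from hn]
    abel

/-- The cocycle attached to a homomorphism `G → ℚ/ℤ` trivial on a member of the level system. -/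
def cocycleOfFun (f : G → QZ) (hmul : ∀ g h, f (g * h) = f g + f h)
    (hlev : ∃ N ∈ 𝓝.carrier, ∀ n ∈ N, f n = 0) : Zsm 𝓝 (TrivMod QZ) 1 :=
  ⟨fun x => TrivMod.of (f (x 0)), by
    refine ⟨?_, ?_⟩
    · obtain ⟨N, hN, h⟩ := hlev
      refine ⟨N, hN, fun g k hgk => ?_⟩
      have h1 : k 0 = g 0 * ((g 0)⁻¹ * k 0) := by group
      show TrivMod.of (f (g 0)) = TrivMod.of (f (k 0))
      rw [h1, hmul, h _ (hgk 0), add_zero]
    · show dd (TrivMod QZ) 1 (fun x => TrivMod.of (f (x 0))) = 0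
      funext x
      rw [dd_one_apply]
      apply TrivMod.ext
      simp only [TrivMod.smul_def, TrivMod.val_add, TrivMod.val_sub, TrivMod.val_of,
        Pi.zero_apply, TrivMod.val_zero, hmul]
      abel⟩

/-- The character attached to a homomorphism `G → ℚ/ℤ` trivial on a member of the level
system. -/
def ofFun (f : G → QZ) (hmul : ∀ g h, f (g * h) = f g + f h)
    (hlev : ∃ N ∈ 𝓝.carrier, ∀ n ∈ N, f n = 0) : Chr 𝓝 :=
  Hsm.mk 𝓝 (TrivMod QZ) 1 (cocycleOfFun f hmul hlev)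

@[simp] theorem ev_ofFun (f : G → QZ) (hmul : ∀ g h, f (g * h) = f g + f h)
    (hlev : ∃ N ∈ 𝓝.carrier, ∀ n ∈ N, f n = 0) (g : G) :
    Chr.ev 𝓝 g (ofFun f hmul hlev) = f g := rfl

end Chr

end Fermat.Agent.S55
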