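/-
S55 / block LOC-C : definitions for the computation of the local Brauer group.
`ofFix U b` (the invariant function `g U ↦ g • b` attached to `b ∈ A^U`), `evFix`,
`cupU U b χ ∈ H^2(Map(G/U, A))`, the unramified characters `I.ur r` of a `LocalInput`,
the subgroup `I.BrUr U` of unramified classes.
-/
import Fermat.Agent.S55.Loc.Interface
import Fermat.Agent.S55.Loc.Coh.ChrDefs

set_option autoImplicit false

namespace Fermat.Agent.S55.Loc

variable {G : Type} [Group G] {A : Type} [AddCommGroup A] [DistribMulAction G A]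

/-- The invariant function `g U ↦ g • b` attached to `b ∈ A^U`. -/
def ofFix (U : Subgroup G) : fixA A U →+ inv0 G (IndMod (G ⧸ U) A) where
  toFun b := ⟨IndMod.of (Quotient.lift (fun g : G => g • (b : A)) (by
      intro x y hxy
      have h1 : x⁻¹ * y ∈ U := QuotientGroup.leftRel_apply.1 hxy
      have h2 := b.2 _ h1
      show x • (b : A) = y • (b : A)
      conv_lhs => rw [← h2, smul_smul, mul_inv_cancel_left])), by
    rw [mem_inv0]
    intro g
    ext x
    induction x using QuotientGroup.induction_on with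
    | H y =>
      show g • ((g⁻¹ * y) • (b : A)) = y • (b : A)
      rw [smul_smul, mul_inv_cancel_left]⟩
  map_zero' := by
    apply Subtype.ext
    ext x
    induction x using QuotientGroup.induction_on with
    | H y => exact smul_zero y
  map_add' b b' := by
    apply Subtype.ext
    ext x
    induction x using QuotientGroup.induction_on with
    | H y => exact smul_add y _ _

@[simp] theorem ofFix_apply_mk (U : Subgroup G) (b : fixA A U) (g : G) :
    (ofFix U b : IndMod (G ⧸ U) A) (g : G ⧸ U) = g • (b : A) := rfl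

/-- The value at the base point of an invariant function. -/
def evFix (U : Subgroup G) : inv0 G (IndMod (G ⧸ U) A) →+ fixA A U where
  toFun a := ⟨(a : IndMod (G ⧸ U) A) ((1 : G) : G ⧸ U), by
    intro u hu
    have h1 := congrArg (fun f : IndMod (G ⧸ U) A => f ((1 : G) : G ⧸ U)) (mem_inv0.1 a.2 u)
    simp only [IndMod.smul_apply] at h1
    have h2 : u⁻¹ • ((1 : G) : G ⧸ U) = ((1 : G) : G ⧸ U) := by
      show ((u⁻¹ * 1 : G) : G ⧸ U) = ((1 : G) : G ⧸ U)
      rw [QuotientGroup.eq]
      simpa using hu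
    rwa [h2] at h1⟩
  map_zero' := rfl
  map_add' _ _ := rfl

@[simp] theorem coe_evFix (U : Subgroup G) (a : inv0 G (IndMod (G ⧸ U) A)) :
    (evFix U a : A) = (a : IndMod (G ⧸ U) A) ((1 : G) : G ⧸ U) := rfl

theorem evFix_ofFix (U : Subgroup G) (b : fixA A U) : evFix U (ofFix U b) = b :=
  Subtype.ext (one_smul G (b : A))

theorem ofFix_evFix (U : Subgroup G) (a : inv0 G (IndMod (G ⧸ U) A)) :
    ofFix U (evFix U a) = a := by
  apply Subtype.ext
  ext x
  induction x using QuotientGroup.induction_on with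
  | H y =>
    have h1 := congrArg (fun f : IndMod (G ⧸ U) A => f (y : G ⧸ U)) (mem_inv0.1 a.2 y)
    simp only [IndMod.smul_apply] at h1
    have h2 : y⁻¹ • (y : G ⧸ U) = ((1 : G) : G ⧸ U) := by
      show ((y⁻¹ * y : G) : G ⧸ U) = ((1 : G) : G ⧸ U)
      rw [inv_mul_cancel]
    rw [h2] at h1
    exact h1

/-- `H^0(Map(G/U, A)) = A^U`. -/
def fixEquiv (U : Subgroup G) : inv0 G (IndMod (G ⧸ U) A) ≃+ fixA A U where
  toFun := evFix U
  invFun := ofFix U
  left_inv := ofFix_evFix U
  right_inv := evFix_ofFix U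
  map_add' := map_add _

/-- The Brauer group of (the field attached to) `U`. -/
abbrev Br (𝓝 : LevelSys G) (A : Type) [AddCommGroup A] [DistribMulAction G A] (U : Subgroup G) :
    Type := Hsm 𝓝 (IndMod (G ⧸ U) A) 2

/-- `b ∪ δχ ∈ Br(U)` for `b ∈ A^U` and a character `χ` of `G`. -/
noncomputable def cupU (𝓝 : LevelSys G) (U : Subgroup G) (b : fixA A U) : Chr 𝓝 →+ Br 𝓝 A U :=
  cup 𝓝 (ofFix U b)

/-- Restriction `Br(U) → Br(V)`. -/
noncomputable def resBr (𝓝 : LevelSys G) (A : Type) [AddCommGroup A] [DistribMulAction G A]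
    {V U : Subgroup G} (h : V ≤ U) : Br 𝓝 A U →+ Br 𝓝 A V :=
  Hsm.map (IndMod.pull A (cosetMap h)) 2

/-- Corestriction `Br(V) → Br(U)`. -/
noncomputable def corBr (𝓝 : LevelSys G) (A : Type) [AddCommGroup A] [DistribMulAction G A]
    {V U : Subgroup G} [Finite (G ⧸ V)] (h : V ≤ U) : Br 𝓝 A V →+ Br 𝓝 A U :=
  Hsm.map (IndMod.push A (cosetMap h)) 2

namespace LocalInput

variable {𝓝 : LevelSys G} (I : LocalInput 𝓝 A)

/-- The unramified character with value `r` at the Frobenius. -/
def ur : QZ →+ Chr 𝓝 where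
  toFun r := Chr.ofFun (I.chi r) (I.chi_mul r) (I.chi_level r)
  map_zero' := by
    apply Chr.ext
    intro g
    rw [Chr.ev_ofFun, map_zero]
    have h := I.chi_add 0 0 g
    rw [add_zero] at h
    exact add_eq_left.1 h.symm
  map_add' r s := by
    apply Chr.ext
    intro g
    rw [map_add, Chr.ev_ofFun, Chr.ev_ofFun, Chr.ev_ofFun, I.chi_add]

@[simp] theorem ev_ur (r : QZ) (g : G) : Chr.ev 𝓝 g (I.ur r) = I.chi r g := rfl

/-- The unramified classes in `Br(U)`. -/
noncomputable def BrUr (U : Subgroup G) : AddSubgroup (Br 𝓝 A U) :=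
  AddSubgroup.closure {c | ∃ (b : fixA A U) (r : QZ), c = cupU 𝓝 U b (I.ur r)}

end LocalInput

end Fermat.Agent.S55.Loc
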