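/-
S55 / block LOC-C, node LOC-C04a (helper258): algebra of `fixA`, `nmA`, `nmTop`, `normSub`
(first half of section LOC-C04: inclusions, norms, independence of the representatives,
transitivity).
-/
import Fermat.Agent.S55.Loc.Coh.LocDefs

set_option autoImplicit false

namespace Fermat.Agent.S55

namespace Loc

namespace FixNormA

variable {G : Type} [Group G] {A : Type} [AddCommGroup A] [DistribMulAction G A]

theorem smul_eq_of_mk_eq {U : Subgroup G} {a : A} (ha : a ∈ fixA A U) {x y : G}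
    (h : (x : G ⧸ U) = (y : G ⧸ U)) : x • a = y • a := by
  have h1 : x⁻¹ * y ∈ U := QuotientGroup.eq.mp h
  conv_lhs => rw [← ha _ h1, smul_smul, mul_inv_cancel_left]

/-- the norm to the whole group does not depend on the representatives -/
theorem nmTop_eq_sum {U : Subgroup G} {a : A} (ha : a ∈ fixA A U) {ι : Type} [Fintype ι]
    (t : ι → G) (hbij : Function.Bijective fun i => (t i : G ⧸ U)) :
    nmTop A U a = ∑ i, t i • a := by
  rw [← finsum_eq_sum_of_fintype]
  unfold nmTop
  symm
  apply finsum_eq_of_bijective _ hbij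
  intro i
  exact smul_eq_of_mk_eq ha (QuotientGroup.out_eq' _).symm

theorem nmTop_eq_sum_out {U : Subgroup G} [Fintype (G ⧸ U)] (a : A) :
    nmTop A U a = ∑ c : G ⧸ U, (Quotient.out c : G) • a :=
  finsum_eq_sum_of_fintype _

theorem nmA_eq_nmTop (V U : Subgroup G) (b : A) :
    nmA A V U b = nmTop (Γ := ↥U) A (V.subgroupOf U) b := rfl

theorem mem_fixA_subgroupOf {V : Subgroup G} (U : Subgroup G) {b : A} (hb : b ∈ fixA A V) :
    b ∈ fixA (Γ := ↥U) A (V.subgroupOf U) :=
  fun u hu => hb (u : G) (Subgroup.mem_subgroupOf.mp hu)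

theorem finsum_const_eq {X : Type} (a : A) : ∑ᶠ _ : X, a = Nat.card X • a := by
  rcases finite_or_infinite X with hX | hX
  · let _ := Fintype.ofFinite X
    rw [finsum_eq_sum_of_fintype, Finset.sum_const, Finset.card_univ, Nat.card_eq_fintype_card]
  · rw [Nat.card_eq_zero_of_infinite, zero_smul]
    rcases eq_or_ne a 0 with rfl | ha
    · exact finsum_zero
    · apply finsum_of_infinite_support
      have : (Function.support fun _ : X => a) = Set.univ := by
        ext x
        simp [ha]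
      rw [this]
      exact Set.infinite_univ

end FixNormA

open FixNormA

section C04

variable {G : Type} [Group G] {A : Type} [AddCommGroup A] [DistribMulAction G A]

theorem fixA_mono {V U : Subgroup G} (h : V ≤ U) : fixA A U ≤ fixA A V :=
  fun _ ha u hu => ha u (h hu)

theorem fixA_top_eq : fixA A (⊤ : Subgroup G) = inv0 G A := by
  ext a
  rw [mem_fixA, mem_inv0]
  exact ⟨fun h g => h g (Subgroup.mem_top g), fun h g _ => h g⟩

theorem nmTop_mem {U : Subgroup G} (hfin : U.index ≠ 0) {a : A} (ha : a ∈ fixA A U) :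
    nmTop A U a ∈ fixA A (⊤ : Subgroup G) := by
  intro g _
  have : Finite (G ⧸ U) := Subgroup.index_ne_zero_iff_finite.mp hfin
  let _ := Fintype.ofFinite (G ⧸ U)
  have h2 : nmTop A U a = ∑ c : G ⧸ U, (g * Quotient.out c : G) • a := by
    apply nmTop_eq_sum ha
    have : (fun c : G ⧸ U => ((g * Quotient.out c : G) : G ⧸ U)) = fun c => g • c := by
      funext c
      conv_rhs => rw [← QuotientGroup.out_eq' c]
      rfl
    rw [this]
    exact MulAction.bijective g
  conv_rhs => rw [h2]
  rw [nmTop_eq_sum_out, Finset.smul_sum]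
  simp only [mul_smul]

theorem nmTop_add {U : Subgroup G} (hfin : U.index ≠ 0) (a a' : A) :
    nmTop A U (a + a') = nmTop A U a + nmTop A U a' := by
  have : Finite (G ⧸ U) := Subgroup.index_ne_zero_iff_finite.mp hfin
  unfold nmTop
  simp only [smul_add]
  exact finsum_add_distrib (Set.toFinite _) (Set.toFinite _)

theorem nmTop_neg {U : Subgroup G} (a : A) : nmTop A U (-a) = - nmTop A U a := by
  unfold nmTop
  simp only [smul_neg]
  exact finsum_neg_distrib _

theorem nmA_mem_fixA {V U : Subgroup G} (h : V ≤ U) (hfin : V.relIndex U ≠ 0) {b : A}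
    (hb : b ∈ fixA A V) : nmA A V U b ∈ fixA A U := by
  intro u hu
  exact nmTop_mem (G := ↥U) (U := V.subgroupOf U) hfin (mem_fixA_subgroupOf U hb) ⟨u, hu⟩
    (Subgroup.mem_top _)

theorem nmA_add {V U : Subgroup G} (hfin : V.relIndex U ≠ 0) (b b' : A) :
    nmA A V U (b + b') = nmA A V U b + nmA A V U b' :=
  nmTop_add (G := ↥U) (U := V.subgroupOf U) hfin b b'

theorem nmA_neg {V U : Subgroup G} (b : A) : nmA A V U (-b) = - nmA A V U b :=
  nmTop_neg (G := ↥U) (U := V.subgroupOf U) b

/-- the norm does not depend on the representatives -/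
theorem nmA_eq_sum {V U : Subgroup G} (h : V ≤ U) {b : A} (hb : b ∈ fixA A V)
    {ι : Type} [Fintype ι] (t : ι → G) (ht : ∀ i, t i ∈ U)
    (hbij : Function.Bijective fun i => (QuotientGroup.mk (⟨t i, ht i⟩ : ↥U) :
      ↥U ⧸ V.subgroupOf U)) : nmA A V U b = ∑ i, t i • b :=
  nmTop_eq_sum (G := ↥U) (U := V.subgroupOf U) (mem_fixA_subgroupOf U hb)
    (fun i => (⟨t i, ht i⟩ : ↥U)) hbij

theorem nmA_of_mem_fixA {V U : Subgroup G} (h : V ≤ U) {a : A} (ha : a ∈ fixA A U) :
    nmA A V U a = V.relIndex U • a := by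
  have h1 : nmA A V U a = ∑ᶠ _ : ↥U ⧸ V.subgroupOf U, a := by
    unfold nmA
    congr 1
    funext c
    exact ha _ (Quotient.out c : ↥U).2
  rw [h1, finsum_const_eq]
  rfl

theorem nmTop_top {a : A} (ha : a ∈ fixA A (⊤ : Subgroup G)) : nmTop A (⊤ : Subgroup G) a = a := by
  have h1 : nmTop A (⊤ : Subgroup G) a = ∑ _ : Unit, (1 : G) • a := by
    apply nmTop_eq_sum ha (fun _ : Unit => (1 : G))
    constructor
    · intro x y _
      rfl
    · intro c
      induction c using QuotientGroup.induction_on with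
      | H g => exact ⟨(), QuotientGroup.eq.mpr (Subgroup.mem_top _)⟩
  rw [h1]
  simp

theorem nmA_top {U : Subgroup G} {a : A} (ha : a ∈ fixA A U) :
    nmA A U (⊤ : Subgroup G) a = nmTop A U a := by
  unfold nmA nmTop
  apply finsum_eq_of_bijective
    (fun c : ↥(⊤ : Subgroup G) ⧸ U.subgroupOf ⊤ => (((Quotient.out c : ↥(⊤ : Subgroup G)) : G) : G ⧸ U))
  · constructor
    · intro c c' hcc
      have h1 : ((Quotient.out c : ↥(⊤ : Subgroup G)) : G)⁻¹ * (Quotient.out c' : ↥(⊤ : Subgroup G)) ∈ U :=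
        QuotientGroup.eq.mp hcc
      rw [← QuotientGroup.out_eq' c, ← QuotientGroup.out_eq' c', QuotientGroup.eq]
      exact Subgroup.mem_subgroupOf.mpr h1
    · intro x
      induction x using QuotientGroup.induction_on with
      | H g =>
        refine ⟨((⟨g, Subgroup.mem_top g⟩ : ↥(⊤ : Subgroup G)) : ↥(⊤ : Subgroup G) ⧸ U.subgroupOf ⊤), ?_⟩
        have h1 := QuotientGroup.out_eq'
          ((⟨g, Subgroup.mem_top g⟩ : ↥(⊤ : Subgroup G)) : ↥(⊤ : Subgroup G) ⧸ U.subgroupOf ⊤)
        have h2 := QuotientGroup.eq.mp h1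
        exact QuotientGroup.eq.mpr (Subgroup.mem_subgroupOf.mp h2)
  · intro c
    exact smul_eq_of_mk_eq ha (QuotientGroup.out_eq' _).symm

/-- transitivity of the norm -/
theorem nmTop_nmA {V U : Subgroup G} (h : V ≤ U) (hfin : V.index ≠ 0) {b : A}
    (hb : b ∈ fixA A V) : nmTop A U (nmA A V U b) = nmTop A V b := by
  have hmul := Subgroup.relIndex_mul_index h
  have hU : U.index ≠ 0 := fun h0 => hfin (by rw [← hmul, h0, mul_zero])
  have hVU : (V.subgroupOf U).index ≠ 0 := fun h0 => hfin (by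
    rw [← hmul, Subgroup.relIndex, h0, zero_mul])
  have : Finite (G ⧸ U) := Subgroup.index_ne_zero_iff_finite.mp hU
  have : Finite (↥U ⧸ V.subgroupOf U) := Subgroup.index_ne_zero_iff_finite.mp hVU
  let _ := Fintype.ofFinite (G ⧸ U)
  let _ := Fintype.ofFinite (↥U ⧸ V.subgroupOf U)
  have h1 : nmTop A V b = ∑ p : (G ⧸ U) × (↥U ⧸ V.subgroupOf U),
      ((Quotient.out p.1 : G) * ((Quotient.out p.2 : ↥U) : G)) • b := by
    apply nmTop_eq_sum hb
    have : (fun p : (G ⧸ U) × (↥U ⧸ V.subgroupOf U) =>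
        (((Quotient.out p.1 : G) * ((Quotient.out p.2 : ↥U) : G) : G) : G ⧸ V))
        = (Subgroup.quotientEquivProdOfLE h).symm := by
      funext p
      obtain ⟨c, d⟩ := p
      conv_rhs => rw [← QuotientGroup.out_eq' d]
      rfl
    rw [this]
    exact Equiv.bijective _
  rw [h1, Fintype.sum_prod_type, nmTop_eq_sum_out]
  apply Finset.sum_congr rfl
  intro c _
  rw [nmA_eq_nmTop, nmTop_eq_sum_out, Finset.smul_sum]
  apply Finset.sum_congr rfl
  intro d _
  rw [mul_smul]
  rfl

theorem mem_normSub_iff {V U : Subgroup G} (hfin : V.relIndex U ≠ 0) {a : A} :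
    a ∈ normSub A V U ↔ ∃ b ∈ fixA A V, nmA A V U b = a := by
  constructor
  · intro ha
    unfold normSub at ha
    induction ha using AddSubgroup.closure_induction with
    | mem x hx =>
      obtain ⟨b, hb, rfl⟩ := hx
      exact ⟨b, hb, rfl⟩
    | zero =>
      refine ⟨0, (fixA A V).zero_mem, ?_⟩
      unfold nmA
      simp
    | add x y _ _ hx hy =>
      obtain ⟨b, hb, rfl⟩ := hx
      obtain ⟨b', hb', rfl⟩ := hy
      exact ⟨b + b', (fixA A V).add_mem hb hb', nmA_add hfin b b'⟩
    | neg x _ hx =>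
      obtain ⟨b, hb, rfl⟩ := hx
      exact ⟨-b, (fixA A V).neg_mem hb, nmA_neg b⟩
  · rintro ⟨b, hb, rfl⟩
    exact AddSubgroup.subset_closure ⟨b, hb, rfl⟩

end C04

end Loc

end Fermat.Agent.S55
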