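/-
S55 / block LOC-C, node LOC-C04b : the dictionary `H^0(Map(G/U, A)) = A^U` for `pull`, `push`,
`sum`; restriction and corestriction of the classes `cupU`; `cor ∘ res = index`.
-/
import Fermat.Agent.S55.Loc.Coh.LocDefs
import Fermat.Agent.S55.Loc.Coh.FixNormA
import Fermat.Agent.S55.Loc.Coh.CupApi
import Fermat.Agent.S55.Coh.IndApi
import Fermat.Agent.S55.Coh.Coset

set_option autoImplicit false

namespace Fermat.Agent.S55

variable {G : Type} [Group G] {𝓝 : LevelSys G}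

namespace Loc

variable {A : Type} [AddCommGroup A] [DistribMulAction G A]

theorem map_pull_ofFix {V U : Subgroup G} (h : V ≤ U) (a : fixA A U) :
    inv0.map (IndMod.pull A (cosetMap h)) (ofFix U a) = ofFix V ⟨(a : A), fixA_mono h a.2⟩ := by
  apply Subtype.ext
  ext x
  induction x using QuotientGroup.induction_on with
  | H y => rfl

/-- The representatives of `U / V` enumerate the fibre of `G / V → G / U` over the base point. -/
theorem fibre_out_bijective {V U : Subgroup G} (h : V ≤ U) :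
    ∃ e : ↥U ⧸ V.subgroupOf U → {y : G ⧸ V // cosetMap h y = ((1 : G) : G ⧸ U)},
      Function.Bijective e ∧
        ∀ c, ((e c).1 : G ⧸ V) = ((((Quotient.out c : ↥U) : G)) : G ⧸ V) := by
  refine ⟨fun c => ⟨((((Quotient.out c : ↥U) : G)) : G ⧸ V), ?_⟩, ⟨?_, ?_⟩, fun c => rfl⟩
  · rw [cosetMap_mk, QuotientGroup.eq]
    simp
  · intro c c' hcc
    have h1 : ((((Quotient.out c : ↥U) : G)) : G ⧸ V) = ((((Quotient.out c' : ↥U) : G)) : G ⧸ V) :=
      congrArg Subtype.val hcc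
    rw [QuotientGroup.eq] at h1
    have h2 : ((Quotient.out c : ↥U) : ↥U ⧸ V.subgroupOf U) = ((Quotient.out c' : ↥U) :
        ↥U ⧸ V.subgroupOf U) := by
      rw [QuotientGroup.eq, Subgroup.mem_subgroupOf]
      simpa using h1
    rwa [QuotientGroup.out_eq', QuotientGroup.out_eq'] at h2
  · rintro ⟨y, hy⟩
    induction y using QuotientGroup.induction_on with
    | H g =>
      rw [cosetMap_mk, QuotientGroup.eq] at hy
      have hg : g ∈ U := by simpa using hy
      refine ⟨((⟨g, hg⟩ : ↥U) : ↥U ⧸ V.subgroupOf U), Subtype.ext ?_⟩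
      show ((((Quotient.out ((⟨g, hg⟩ : ↥U) : ↥U ⧸ V.subgroupOf U) : ↥U) : G)) : G ⧸ V) =
        (g : G ⧸ V)
      have h3 : ((Quotient.out ((⟨g, hg⟩ : ↥U) : ↥U ⧸ V.subgroupOf U) : ↥U) :
          ↥U ⧸ V.subgroupOf U) = ((⟨g, hg⟩ : ↥U) : ↥U ⧸ V.subgroupOf U) :=
        QuotientGroup.out_eq' _
      rw [QuotientGroup.eq, Subgroup.mem_subgroupOf] at h3
      rw [QuotientGroup.eq]
      simpa using h3

theorem map_push_ofFix {V U : Subgroup G} [Finite (G ⧸ V)] (h : V ≤ U) (b : fixA A V)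
    (hb : nmA A V U (b : A) ∈ fixA A U) :
    inv0.map (IndMod.push A (cosetMap h)) (ofFix V b) = ofFix U ⟨nmA A V U b, hb⟩ := by
  apply (fixEquiv U).injective
  show evFix U _ = evFix U _
  rw [evFix_ofFix]
  apply Subtype.ext
  rw [coe_evFix, inv0.coe_map, IndMod.push_apply]
  obtain ⟨e, he, hec⟩ := fibre_out_bijective h
  symm
  refine finsum_eq_of_bijective e he fun c => ?_
  rw [hec c, ofFix_apply_mk]

theorem sum_ofFix {U : Subgroup G} [Finite (G ⧸ U)] (a : fixA A U) :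
    IndMod.sum (G := G) (G ⧸ U) A (ofFix U a : IndMod (G ⧸ U) A) = nmTop A U a := by
  rw [IndMod.sum_def]
  refine finsum_congr fun c => ?_
  conv_lhs => rw [← QuotientGroup.out_eq' c]
  exact ofFix_apply_mk U a _

theorem resBr_cupU {V U : Subgroup G} (h : V ≤ U) (a : fixA A U) (χ : Chr 𝓝) :
    resBr 𝓝 A h (cupU 𝓝 U a χ) = cupU 𝓝 V ⟨(a : A), fixA_mono h a.2⟩ χ := by
  show Hsm.map (IndMod.pull A (cosetMap h)) 2 (cup 𝓝 (ofFix U a) χ) = cup 𝓝 (ofFix V _) χ
  rw [map_cup, map_pull_ofFix]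

theorem corBr_cupU {V U : Subgroup G} [Finite (G ⧸ V)] (h : V ≤ U) (b : fixA A V)
    (hb : nmA A V U (b : A) ∈ fixA A U) (χ : Chr 𝓝) :
    corBr 𝓝 A h (cupU 𝓝 V b χ) = cupU 𝓝 U ⟨nmA A V U b, hb⟩ χ := by
  show Hsm.map (IndMod.push A (cosetMap h)) 2 (cup 𝓝 (ofFix V b) χ) = cup 𝓝 (ofFix U _) χ
  rw [map_cup, map_push_ofFix h b hb]

theorem corBr_resBr {V U : Subgroup G} [Finite (G ⧸ V)] (h : V ≤ U) (x : Br 𝓝 A U) :
    corBr 𝓝 A h (resBr 𝓝 A h x) = V.relIndex U • x :=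
  Hsm.map_push_pull (cosetMap h) (V.relIndex U) (cosetMap_card_fiber h) 2 x

theorem resBr_resBr {W V U : Subgroup G} (h : W ≤ V) (h' : V ≤ U) (x : Br 𝓝 A U) :
    resBr 𝓝 A h (resBr 𝓝 A h' x) = resBr 𝓝 A (h.trans h') x := by
  refine (Hsm.map_comp' (ψ := IndMod.pull A (cosetMap h)) (φ := IndMod.pull A (cosetMap h'))
    (χ := IndMod.pull A (cosetMap (h.trans h'))) (fun f => ?_) 2 x).symm
  ext y
  show f (cosetMap (h.trans h') y) = f (cosetMap h' (cosetMap h y))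
  rw [cosetMap_cosetMap]

theorem resBr_self {U : Subgroup G} (x : Br 𝓝 A U) : resBr 𝓝 A (le_refl U) x = x := by
  refine Hsm.map_id' (fun f => ?_) 2 x
  ext y
  show f (cosetMap (le_refl U) y) = f y
  rw [cosetMap_refl]

end Loc

end Fermat.Agent.S55
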