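/-
S55 / block LOC-C02 : elementary facts about `ℚ/ℤ` (helper111).
-/
import Fermat.Agent.S55.Loc.Coh.CupDefs

set_option autoImplicit false

namespace Fermat.Agent.S55

section C02

theorem QZ.zsmul_toQZ (k : ℤ) (x : ℚ) : k • toQZ x = toQZ ((k : ℚ) * x) := by
  rw [← map_zsmul, zsmul_eq_mul]

theorem QZ.nsmul_toQZ (n : ℕ) (x : ℚ) : n • toQZ x = toQZ ((n : ℚ) * x) := by
  rw [← map_nsmul, nsmul_eq_mul]

theorem QZ.toQZ_intCast (m : ℤ) : toQZ (m : ℚ) = 0 := (toQZ_eq_zero_iff _).2 ⟨m, rfl⟩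

theorem QZ.exists_nsmul_eq_zero (r : QZ) : ∃ n : ℕ, 0 < n ∧ n • r = 0 := by
  obtain ⟨x, rfl⟩ := toQZ_surjective r
  refine ⟨x.den, x.den_pos, ?_⟩
  rw [QZ.nsmul_toQZ, mul_comm, Rat.mul_den_eq_num]
  exact QZ.toQZ_intCast _

theorem QZ.exists_zsmul_eq (k : ℤ) (hk : k ≠ 0) (r : QZ) : ∃ s : QZ, k • s = r := by
  obtain ⟨x, rfl⟩ := toQZ_surjective r
  refine ⟨toQZ (x / k), ?_⟩
  have hk' : (k : ℚ) ≠ 0 := by exact_mod_cast hk
  rw [QZ.zsmul_toQZ, mul_div_cancel₀ _ hk']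

theorem QZ.zsmul_toQZ_inv_eq_zero_iff (n : ℕ) (hn : 0 < n) (k : ℤ) :
    k • toQZ (1 / (n : ℚ)) = 0 ↔ (n : ℤ) ∣ k := by
  have hn' : (n : ℚ) ≠ 0 := by exact_mod_cast hn.ne'
  rw [QZ.zsmul_toQZ, toQZ_eq_zero_iff]
  constructor
  · rintro ⟨m, hm⟩
    refine ⟨m, ?_⟩
    have h1 : (k : ℚ) = (n : ℚ) * m := by
      rw [hm]
      field_simp
    exact_mod_cast h1
  · rintro ⟨m, rfl⟩
    refine ⟨m, ?_⟩
    push_cast
    field_simp

/-- `r` killed by `n` is a multiple of `1/n`. -/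
theorem QZ.exists_eq_zsmul_of_nsmul_eq_zero (n : ℕ) (hn : 0 < n) (r : QZ) (h : n • r = 0) :
    ∃ k : ℤ, r = k • toQZ (1 / (n : ℚ)) := by
  have hn' : (n : ℚ) ≠ 0 := by exact_mod_cast hn.ne'
  obtain ⟨x, rfl⟩ := toQZ_surjective r
  rw [QZ.nsmul_toQZ, toQZ_eq_zero_iff] at h
  obtain ⟨m, hm⟩ := h
  refine ⟨m, ?_⟩
  rw [QZ.zsmul_toQZ, hm]
  congr 1
  field_simp

theorem QZ.dvd_of_forall (a b : ℤ) (ha : a ≠ 0) (h : ∀ r : QZ, a • r = 0 → b • r = 0) : a ∣ b := by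
  have hn : 0 < a.natAbs := Int.natAbs_pos.mpr ha
  have h1 : a • toQZ (1 / (a.natAbs : ℚ)) = 0 :=
    (QZ.zsmul_toQZ_inv_eq_zero_iff _ hn a).2 (Int.natAbs_dvd.mpr dvd_rfl)
  have h2 := (QZ.zsmul_toQZ_inv_eq_zero_iff _ hn b).1 (h _ h1)
  exact Int.natAbs_dvd.mp h2

theorem QZ.addOrderOf_toQZ_inv (n : ℕ) (hn : 0 < n) : addOrderOf (toQZ (1 / (n : ℚ))) = n := by
  rw [addOrderOf_eq_iff hn]
  constructor
  · rw [← natCast_zsmul, QZ.zsmul_toQZ_inv_eq_zero_iff n hn]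
  · intro m hm hm0 h0
    rw [← natCast_zsmul, QZ.zsmul_toQZ_inv_eq_zero_iff n hn] at h0
    have := Nat.le_of_dvd hm0 (Int.natCast_dvd_natCast.mp h0)
    omega

/-- A finite subgroup of `ℚ/ℤ` of order `n` contains `1/n`. -/
theorem QZ.toQZ_inv_mem_of_card (H : AddSubgroup QZ) [Finite H] :
    toQZ (1 / (Nat.card H : ℚ)) ∈ H := by
  have hn : 0 < Nat.card H := Nat.card_pos
  set n := Nat.card H with hn_def
  set Z : AddSubgroup QZ := AddSubgroup.zmultiples (toQZ (1 / (n : ℚ))) with hZ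
  have hle : H ≤ Z := by
    intro r hr
    have h1 : n • r = 0 := by
      have h2 : n • (⟨r, hr⟩ : H) = 0 := by
        rw [hn_def]
        exact card_nsmul_eq_zero'
      exact congrArg Subtype.val h2
    obtain ⟨k, hk⟩ := QZ.exists_eq_zsmul_of_nsmul_eq_zero n hn r h1
    rw [hk]
    exact AddSubgroup.zsmul_mem _ (AddSubgroup.mem_zmultiples _) k
  have hcard : Nat.card Z = n := by
    rw [hZ, Nat.card_zmultiples, QZ.addOrderOf_toQZ_inv n hn]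
  have : Finite Z := Nat.finite_of_card_ne_zero (by rw [hcard]; exact hn.ne')
  have hEq : H = Z := AddSubgroup.eq_of_le_of_card_ge hle (by rw [hcard])
  rw [hEq]
  exact AddSubgroup.mem_zmultiples _

/-- The representative in `[0,1)`. -/
noncomputable def QZ.frac (r : QZ) : ℚ := Int.fract (Quotient.out r : ℚ)

theorem QZ.toQZ_out (r : QZ) : toQZ (Quotient.out r : ℚ) = r := Quotient.out_eq r

theorem QZ.toQZ_fract (x : ℚ) : toQZ (Int.fract x) = toQZ x := by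
  rw [Int.fract, map_sub, QZ.toQZ_intCast, sub_zero]

theorem QZ.toQZ_frac (r : QZ) : toQZ (QZ.frac r) = r := by
  rw [QZ.frac, QZ.toQZ_fract, QZ.toQZ_out]

theorem QZ.frac_nonneg (r : QZ) : 0 ≤ QZ.frac r := Int.fract_nonneg _

theorem QZ.frac_lt_one (r : QZ) : QZ.frac r < 1 := Int.fract_lt_one _

theorem QZ.frac_toQZ (x : ℚ) : QZ.frac (toQZ x) = Int.fract x := by
  have h1 : toQZ ((Quotient.out (toQZ x) : ℚ) - x) = 0 := by
    rw [map_sub, QZ.toQZ_out, sub_self]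
  obtain ⟨m, hm⟩ := (toQZ_eq_zero_iff _).1 h1
  have h2 : (Quotient.out (toQZ x) : ℚ) = x + m := by
    rw [hm]
    ring
  rw [QZ.frac, h2, Int.fract_add_intCast]

end C02

end Fermat.Agent.S55
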