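/-
S55 / block LOC-C06 (owner helper193): cyclic covers `G/V → G/U` (pure group theory).
-/
import Fermat.Agent.S55.Loc.Coh.LocDefs
import Fermat.Agent.S55.Loc.Coh.QZ
import Fermat.Agent.S55.Coh.FourTerm

set_option autoImplicit false

namespace Fermat.Agent.S55

variable {G : Type} [Group G] {𝓝 : LevelSys G}

section C06

namespace CosetCover

theorem iterate_cosetRight (V : Subgroup G) (s : G) (hs : ∀ v ∈ V, s⁻¹ * v * s ∈ V) (k : ℕ)
    (g : G) : (cosetRight V s hs)^[k] (g : G ⧸ V) = ((g * s ^ k : G) : G ⧸ V) := by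
  induction k with
  | zero => simp
  | succ k ih => rw [Function.iterate_succ_apply', ih, cosetRight_mk, pow_succ, mul_assoc]

/-- the class of `s` in `U/V` -/
theorem pow_mem_iff {V U : Subgroup G} (s : G) (hsU : s ∈ U)
    (hn : (V.subgroupOf U).Normal) (m : ℕ) (hm : V.relIndex U = m)
    (hgen : ∀ u ∈ U, ∃ k : ℤ, (s ^ k)⁻¹ * u ∈ V) (k : ℕ) : s ^ k ∈ V ↔ m ∣ k := by
  set sb : ↥U ⧸ V.subgroupOf U := QuotientGroup.mk (⟨s, hsU⟩ : ↥U) with hsb
  have hall : ∀ x : ↥U ⧸ V.subgroupOf U, x ∈ Subgroup.zpowers sb := by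
    intro x
    induction x using QuotientGroup.induction_on with
    | H u =>
      obtain ⟨k, hk⟩ := hgen u u.2
      refine ⟨k, ?_⟩
      show sb ^ k = _
      rw [hsb, ← QuotientGroup.mk_zpow, QuotientGroup.eq, Subgroup.mem_subgroupOf]
      simpa using hk
  have hord : orderOf sb = m := by
    rw [orderOf_eq_card_of_forall_mem_zpowers hall, ← hm]
    rfl
  rw [← hord, orderOf_dvd_iff_pow_eq_one, hsb, ← QuotientGroup.mk_pow, QuotientGroup.eq_one_iff,
    Subgroup.mem_subgroupOf]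
  simp

/-- version of `cyclicCover_coset` with integral exponents -/
theorem cyclicCover_coset_int {V U : Subgroup G} (h : V ≤ U) (s : G) (hsU : s ∈ U)
    (hs : ∀ v ∈ V, s⁻¹ * v * s ∈ V) (hn : (V.subgroupOf U).Normal) (m : ℕ) (hm : V.relIndex U = m)
    (hm0 : 0 < m) (hgen : ∀ u ∈ U, ∃ k : ℤ, (s ^ k)⁻¹ * u ∈ V) :
    CyclicCover (cosetMap h) (cosetRight V s hs) m where
  pos := hm0
  surj := cosetMap_surjective h
  comm x := by
    induction x using QuotientGroup.induction_on with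
    | H g =>
      rw [cosetRight_mk, cosetMap_mk, cosetMap_mk, QuotientGroup.eq]
      have : (g * s)⁻¹ * g = s⁻¹ := by group
      rw [this]
      exact U.inv_mem hsU
  pow x := by
    induction x using QuotientGroup.induction_on with
    | H g =>
      rw [iterate_cosetRight, QuotientGroup.eq]
      have : (g * s ^ m)⁻¹ * g = (s ^ m)⁻¹ := by group
      rw [this]
      exact V.inv_mem ((pow_mem_iff s hsU hn m hm hgen m).2 dvd_rfl)
  trans x y := by
    induction x using QuotientGroup.induction_on with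
    | H a =>
      induction y using QuotientGroup.induction_on with
      | H b =>
        intro hab
        rw [cosetMap_mk, cosetMap_mk, QuotientGroup.eq] at hab
        obtain ⟨k, hk⟩ := hgen _ hab
        have hm' : (m : ℤ) ≠ 0 := by exact_mod_cast hm0.ne'
        have hnn : 0 ≤ k % (m : ℤ) := Int.emod_nonneg k hm'
        have hlt : k % (m : ℤ) < m := Int.emod_lt_of_pos k (by exact_mod_cast hm0)
        obtain ⟨r, hr⟩ := Int.eq_ofNat_of_zero_le hnn
        refine ⟨r, by rw [hr] at hlt; exact_mod_cast hlt, ?_⟩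
        rw [iterate_cosetRight, QuotientGroup.eq]
        have hsm : s ^ m ∈ V := (pow_mem_iff s hsU hn m hm hgen m).2 dvd_rfl
        have hk2 : s ^ k = s ^ r * (s ^ m) ^ (k / (m : ℤ)) := by
          rw [← zpow_natCast s r, ← hr, ← zpow_natCast s m, ← zpow_mul, ← zpow_add,
            Int.emod_add_mul_ediv]
        have e : (a * s ^ r)⁻¹ * b = (s ^ m) ^ (k / (m : ℤ)) * ((s ^ k)⁻¹ * (a⁻¹ * b)) := by
          rw [hk2]; group
        rw [e]
        exact V.mul_mem (V.zpow_mem hsm _) hk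
  free x k hk0 hkm := by
    induction x using QuotientGroup.induction_on with
    | H g =>
      rw [iterate_cosetRight]
      intro heq
      rw [QuotientGroup.eq] at heq
      have : (g * s ^ k)⁻¹ * g = (s ^ k)⁻¹ := by group
      rw [this] at heq
      have h1 : s ^ k ∈ V := by simpa using V.inv_mem heq
      have h2 := (pow_mem_iff s hsU hn m hm hgen k).1 h1
      exact absurd (Nat.le_of_dvd hk0 h2) (not_le.2 hkm)

end CosetCover

open CosetCover

/-- `V` normal in `U`, `U/V` generated by `s`, of order `m`. -/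
theorem cyclicCover_coset_of_normal {V U : Subgroup G} (h : V ≤ U) (s : G) (hsU : s ∈ U)
    (hs : ∀ v ∈ V, s⁻¹ * v * s ∈ V) (hn : (V.subgroupOf U).Normal) (m : ℕ) (hm : V.relIndex U = m)
    (hm0 : 0 < m) (hgen : ∀ u ∈ U, ∃ k : ℕ, (s ^ k)⁻¹ * u ∈ V) :
    CyclicCover (cosetMap h) (cosetRight V s hs) m :=
  cyclicCover_coset_int h s hsU hs hn m hm hm0 fun u hu => by
    obtain ⟨k, hk⟩ := hgen u hu
    exact ⟨k, by rwa [zpow_natCast]⟩

namespace CosetCover

/-- conjugation by an element of `U` preserves `V` -/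
theorem conj_mem_of_normal {V U : Subgroup G} (h : V ≤ U) (hn : (V.subgroupOf U).Normal) {s : G}
    (hsU : s ∈ U) : ∀ v ∈ V, s⁻¹ * v * s ∈ V := by
  intro v hv
  have h1 := hn.conj_mem (⟨v, h hv⟩ : ↥U) (Subgroup.mem_subgroupOf.2 hv) (⟨s, hsU⟩ : ↥U)⁻¹
  rw [Subgroup.mem_subgroupOf] at h1
  simpa using h1

end CosetCover

/-- prime index -/
theorem exists_cyclicCover_of_prime {V U : Subgroup G} (h : V ≤ U)
    (hn : (V.subgroupOf U).Normal) {ℓ : ℕ} (hℓ : ℓ.Prime) (hi : V.relIndex U = ℓ) :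
    ∃ (s : G) (hs : ∀ v ∈ V, s⁻¹ * v * s ∈ V), s ∈ U ∧
      CyclicCover (cosetMap h) (cosetRight V s hs) ℓ := by
  have : Fact ℓ.Prime := ⟨hℓ⟩
  have hcard : Nat.card (↥U ⧸ V.subgroupOf U) = ℓ := hi
  -- an element of `U` outside `V`
  obtain ⟨s, hsU, hsV⟩ : ∃ s ∈ U, s ∉ V := by
    by_contra hcon
    push Not at hcon
    have hUV : U ≤ V := hcon
    have : V.relIndex U = 1 := Subgroup.relIndex_eq_one.2 hUV
    rw [hi] at this
    exact hℓ.one_lt.ne' this
  refine ⟨s, conj_mem_of_normal h hn hsU, hsU, ?_⟩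
  refine cyclicCover_coset_int h s hsU _ hn ℓ hi hℓ.pos fun u hu => ?_
  have hne : (QuotientGroup.mk (⟨s, hsU⟩ : ↥U) : ↥U ⧸ V.subgroupOf U) ≠ 1 := by
    rw [Ne, QuotientGroup.eq_one_iff, Subgroup.mem_subgroupOf]
    exact hsV
  have htop := zpowers_eq_top_of_prime_card hcard hne
  have hmem : (QuotientGroup.mk (⟨u, hu⟩ : ↥U) : ↥U ⧸ V.subgroupOf U) ∈
      Subgroup.zpowers (QuotientGroup.mk (⟨s, hsU⟩ : ↥U) : ↥U ⧸ V.subgroupOf U) := by
    rw [htop]; exact Subgroup.mem_top _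
  obtain ⟨k, hk⟩ := hmem
  refine ⟨k, ?_⟩
  have hk' : (QuotientGroup.mk (⟨s, hsU⟩ : ↥U) : ↥U ⧸ V.subgroupOf U) ^ k =
      QuotientGroup.mk (⟨u, hu⟩ : ↥U) := hk
  rw [← QuotientGroup.mk_zpow, QuotientGroup.eq, Subgroup.mem_subgroupOf] at hk'
  simpa using hk'

/-- the cover cut out by a character -/
theorem exists_cyclicCover_of_chr {U : Subgroup G} (hU : 𝓝.IsOpen U) (χ : Chr 𝓝) :
    ∃ (s : G) (hs : ∀ v ∈ U ⊓ Chr.ker χ, s⁻¹ * v * s ∈ U ⊓ Chr.ker χ) (m : ℕ), s ∈ U ∧ 0 < m ∧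
      (U ⊓ Chr.ker χ).relIndex U = m ∧ Chr.ev 𝓝 s χ = toQZ (1 / (m : ℚ)) ∧
      CyclicCover (cosetMap (inf_le_left : U ⊓ Chr.ker χ ≤ U))
        (cosetRight (U ⊓ Chr.ker χ) s hs) m := by
  set V : Subgroup G := U ⊓ Chr.ker χ with hV
  have hVU : V ≤ U := inf_le_left
  have hn : (V.subgroupOf U).Normal := by
    rw [hV, Subgroup.inf_subgroupOf_left]
    infer_instance
  -- finiteness of the index
  have hfin : V.relIndex U ≠ 0 := by
    obtain ⟨N, hN, hNU⟩ := hU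
    obtain ⟨N', hN', hN'χ⟩ := Chr.isOpen_ker χ
    obtain ⟨N'', hN'', hle⟩ := 𝓝.directed N hN N' hN'
    have h1 : N'' ≤ V := hle.trans (inf_le_inf hNU hN'χ)
    have h2 : N''.index ≠ 0 := (𝓝.finiteIndex N'' hN'').index_ne_zero
    have h3 : V.index ≠ 0 := fun h0 => h2 (by
      have := Subgroup.index_dvd_of_le h1
      rw [h0] at this
      exact Nat.eq_zero_of_zero_dvd this)
    intro h0
    apply h3
    rw [← Subgroup.relIndex_mul_index hVU, h0, zero_mul]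
  set m := V.relIndex U with hm
  have hm0 : 0 < m := Nat.pos_of_ne_zero hfin
  -- the restriction of the character to `U`
  let ψ : Additive ↥U →+ QZ :=
    AddMonoidHom.mk' (fun u => Chr.ev 𝓝 ((Additive.toMul u : ↥U) : G) χ) (by
      intro a b
      exact Chr.ev_mul χ _ _)
  have hψ : ∀ u : ↥U, ψ (Additive.ofMul u) = Chr.ev 𝓝 (u : G) χ := fun _ => rfl
  have hker : ψ.ker = Subgroup.toAddSubgroup (V.subgroupOf U) := by
    ext u
    rw [AddMonoidHom.mem_ker]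
    show Chr.ev 𝓝 ((Additive.toMul u : ↥U) : G) χ = 0 ↔ ((Additive.toMul u : ↥U) : G) ∈ V
    rw [hV, Subgroup.mem_inf, Chr.mem_ker]
    exact ⟨fun h => ⟨(Additive.toMul u : ↥U).2, h⟩, fun h => h.2⟩
  have hcard : Nat.card ψ.range = m := by
    rw [← AddSubgroup.index_ker, hker, Subgroup.index_toAddSubgroup]
    rfl
  have : Finite ψ.range := Nat.finite_of_card_ne_zero (by rw [hcard]; exact hfin)
  obtain ⟨s', hs'⟩ := QZ.toQZ_inv_mem_of_card ψ.range
  rw [hcard] at hs'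
  set s : ↥U := Additive.toMul s' with hs
  have hsχ : Chr.ev 𝓝 (s : G) χ = toQZ (1 / (m : ℚ)) := hs'
  refine ⟨s, conj_mem_of_normal hVU hn s.2, m, s.2, hm0, rfl, hsχ, ?_⟩
  refine cyclicCover_coset_int hVU s s.2 _ hn m rfl hm0 fun u hu => ?_
  have h1 : m • Chr.ev 𝓝 u χ = 0 := by
    have h2 : m • (⟨ψ (Additive.ofMul (⟨u, hu⟩ : ↥U)), ⟨_, rfl⟩⟩ : ψ.range) = 0 := by
      rw [← hcard]
      exact card_nsmul_eq_zero'
    exact congrArg Subtype.val h2
  obtain ⟨k, hk⟩ := QZ.exists_eq_zsmul_of_nsmul_eq_zero m hm0 _ h1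
  refine ⟨k, ?_⟩
  have hχz : ∀ j : ℤ, Chr.ev 𝓝 ((s : G) ^ j) χ = j • Chr.ev 𝓝 (s : G) χ := by
    intro j
    obtain ⟨n, rfl | rfl⟩ := j.eq_nat_or_neg
    · rw [zpow_natCast, Chr.ev_pow, natCast_zsmul]
    · rw [zpow_neg, zpow_natCast, Chr.ev_inv, Chr.ev_pow, neg_smul, natCast_zsmul]
  rw [hV, Subgroup.mem_inf, Chr.mem_ker]
  refine ⟨U.mul_mem (U.inv_mem (U.zpow_mem s.2 k)) hu, ?_⟩
  rw [Chr.ev_mul, Chr.ev_inv, hχz, hsχ, hk, neg_add_cancel]

/-- the function `κ (g V) = χ(g)` -/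
theorem exists_kappa {V : Subgroup G} (χ : Chr 𝓝) (h : V ≤ Chr.ker χ) :
    ∃ κ : G ⧸ V → QZ, ∀ g : G, κ (g : G ⧸ V) = Chr.ev 𝓝 g χ := by
  refine ⟨Quotient.lift (fun g : G => Chr.ev 𝓝 g χ) ?_, fun g => rfl⟩
  intro a b hab
  have hab' : a⁻¹ * b ∈ V := QuotientGroup.leftRel_apply.1 hab
  have h1 : Chr.ev 𝓝 (a⁻¹ * b) χ = 0 := h hab'
  rw [Chr.ev_mul, Chr.ev_inv] at h1
  show Chr.ev 𝓝 a χ = Chr.ev 𝓝 b χ
  exact (neg_add_eq_zero.1 h1)

end C06

end Fermat.Agent.S55
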