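/-
S55 / block LOC-C : the two hypothesis-definitions of the WIP skeletons, in a landed file
(verbatim copies of `FourTermHyp` (Skeleton1, section C07) and `EffaceHyp` (Skeleton2, preamble)),
so that all final LOC-C files can share them.  Definitions only.
-/
import Fermat.Agent.S55.Loc.Coh.LocDefs
import Fermat.Agent.S55.Coh.FourTerm

set_option autoImplicit false

namespace Fermat.Agent.S55.Loc

/-- the hypothesis "COH(10)": the four term sequence of a cyclic cover is exact -/
def FourTermHyp (G : Type) [Group G] (A : Type) [AddCommGroup A] [DistribMulAction G A] : Prop :=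
  ∀ (X' X : Type) [MulAction G X'] [MulAction G X] [Finite X'] (u : X' →[G] X) (σ : X' →[G] X')
    (m : ℕ), CyclicCover u σ m →
    FourTerm (IndMod.pull A u) (GSub.rangeRestrict (IndMod.sigmaSub A σ))
      (GSub.range (IndMod.sigmaSub A σ)).inclG (IndMod.push A u)

variable {Γ : Type} [Group Γ]

/-- the hypothesis "COH(6)": effaceability for coset spaces in degree `n + 1`
(`Hsm.efface_coset` of COH-C) -/
def EffaceHyp (𝓝 : LevelSys Γ) (A : Type) [AddCommGroup A] [DistribMulAction Γ A] (n : ℕ) : Prop :=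
  ∀ U : Subgroup Γ, 𝓝.IsOpen U → ∀ x : Hsm 𝓝 (IndMod (Γ ⧸ U) A) (n + 1),
    ∃ N ∈ 𝓝.carrier, ∃ h : N ≤ U, Hsm.map (IndMod.pull A (cosetMap h)) (n + 1) x = 0

end Fermat.Agent.S55.Loc
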