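/-
S55 / block LOC-C05 : the double connecting map of a cyclic cover which is "induced by a
character `χ` of `G`" is `- (· ∪ δχ)`.

Cochain computation (`Hsm.delta_mk` twice).  Choose a set-theoretic section `s` of `ℚ → ℚ/ℤ`,
`ρ x' := s (κ x')`, `χ~ g := s (χ g)`.  The numbers
`e x' := 1/m - ρ (σ x') + ρ x'`, `ι_g x' := ρ (g⁻¹ x') - ρ x' + χ~ g` and
`n (g, h) := χ~ h - χ~ (g h) + χ~ g` are integers, `∑_{k < m} e (σ^k x') = 1`,
`ι_g (σ x') - ι_g x' = - (e (g⁻¹ x') - e x')` and `g ι_h - ι_{gh} + ι_g = n (g, h)`.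
Lift `a` to `b₀ := e • pull a`; `d b₀ (g) = (g e - e) • pull a = (σ^* - 1) (- ι_g • pull a)`;
`d (- ι • pull a) (g, h) = - n (g, h) • pull a`, and `[n] = δ χ`.
-/
import Fermat.Agent.S55.Loc.Coh.ChrDefs
import Fermat.Agent.S55.Coh.FourTerm
import Fermat.Agent.S55.Coh.Cyclic

set_option autoImplicit false

namespace Fermat.Agent.S55

variable {G : Type} [Group G] {𝓝 : LevelSys G}

namespace ThetaCup

/-- The cochain computing `δ χ`. -/
theorem deltaRel_dchi (z : Zsm 𝓝 (TrivMod QZ) 1) (ct : G → ℚ)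
    (hct : ∀ g, toQZ (ct g) = ((z : (Fin 1 → G) → TrivMod QZ) fun _ => g).val)
    (hlev : ∃ N ∈ 𝓝.carrier, ∀ g, ∀ k ∈ N, ct (g * k) = ct g)
    (n : G → G → ℤ) (hn : ∀ g h, (n g h : ℚ) = ct h - ct (g * h) + ct g) :
    DeltaRel 𝓝 (TrivMod.map G (Int.castAddHom ℚ)) (TrivMod.map G toQZ) 1
      (z : (Fin 1 → G) → TrivMod QZ) (fun x => TrivMod.of (n (x 0) (x 1))) := by
  refine ⟨fun x => TrivMod.of (ct (x 0)), ?_, ?_, ?_⟩
  · obtain ⟨N, hN, h⟩ := hlev
    refine ⟨N, hN, fun g k hgk => ?_⟩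
    have h1 : k 0 = g 0 * ((g 0)⁻¹ * k 0) := by group
    show TrivMod.of (ct (g 0)) = TrivMod.of (ct (k 0))
    rw [h1, h _ _ (hgk 0)]
  · funext x
    have hx : x = fun _ => x 0 := by
      funext i; fin_cases i; rfl
    apply TrivMod.ext
    show toQZ (ct (x 0)) = _
    rw [hct]
    conv_rhs => rw [hx]
  · funext x
    rw [dd_one_apply]
    apply TrivMod.ext
    show ((n (x 0) (x 1) : ℤ) : ℚ) = ct (x 1) - ct (x 0 * x 1) + ct (x 0)
    exact hn _ _

variable {X' X : Type} [MulAction G X'] [MulAction G X]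
  {A : Type} [AddCommGroup A] [DistribMulAction G A]

/-- `c • pull a` for an integer valued function `c` on `X'`. -/
def coefMul (u : X' →[G] X) (a : IndMod X A) (c : X' → ℤ) : IndMod X' A :=
  IndMod.of fun x => c x • a (u x)

theorem coefMul_apply (u : X' →[G] X) (a : IndMod X A) (c : X' → ℤ) (x : X') :
    coefMul u a c x = c x • a (u x) := rfl

theorem smul_coefMul (u : X' →[G] X) (a : inv0 G (IndMod X A)) (c : X' → ℤ) (g : G) :
    g • coefMul u (a : IndMod X A) c = coefMul u (a : IndMod X A) (fun x => c (g⁻¹ • x)) := by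
  ext x
  have h1 : g • (a : IndMod X A) (g⁻¹ • u x) = (a : IndMod X A) (u x) :=
    congrArg (fun f : IndMod X A => f (u x)) (mem_inv0.1 a.2 g)
  rw [IndMod.smul_apply, coefMul_apply, coefMul_apply, smul_comm, map_smul u, h1]

variable {u : X' →[G] X} {σ : X' →[G] X'} {m : ℕ}

theorem deltaRel_right [Finite X'] (hc : CyclicCover u σ m) (a : inv0 G (IndMod X A))
    (e : X' → ℤ) (io : G → X' → ℤ)
    (hsum : ∀ x, ∑ k ∈ Finset.range m, e (σ^[k] x) = 1)
    (hσ : ∀ g x, io g (σ x) - io g x = - (e (g⁻¹ • x) - e x)) :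
    DeltaRel 𝓝 (GSub.range (IndMod.sigmaSub A σ)).inclG (IndMod.push A u) 0
      (Zsm.ofInv (𝓝 := 𝓝) a : (Fin 0 → G) → IndMod X A)
      (fun g => GSub.rangeRestrict (IndMod.sigmaSub A σ)
        (coefMul u (a : IndMod X A) (fun x => - io (g 0) x))) := by
  refine ⟨fun _ => coefMul u (a : IndMod X A) e, mem_Csm_zero _, ?_, ?_⟩
  · funext _
    show IndMod.push A u (coefMul u (a : IndMod X A) e) = a
    ext x
    obtain ⟨x', rfl⟩ := hc.surj x
    rw [hc.push_apply_map]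
    simp only [coefMul_apply, hc.map_iterate]
    rw [← Finset.sum_smul, hsum, one_smul]
  · funext g
    rw [dd_zero_apply]
    show IndMod.sigmaSub A σ (coefMul u (a : IndMod X A) fun x => - io (g 0) x) =
      g 0 • coefMul u (a : IndMod X A) e - coefMul u (a : IndMod X A) e
    rw [smul_coefMul]
    ext x
    rw [IndMod.sigmaSub_apply, IndMod.sub_apply]
    simp only [coefMul_apply, hc.comm]
    rw [← sub_smul, ← sub_smul]
    congr 1
    have := hσ (g 0) x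
    linarith

theorem deltaRel_left (a : inv0 G (IndMod X A))
    (io : G → X' → ℤ) (n : G → G → ℤ)
    (hcoc : ∀ g h x, io h (g⁻¹ • x) - io (g * h) x + io g x = n g h)
    (hlev : ∃ N ∈ 𝓝.carrier, ∀ g, ∀ k ∈ N, ∀ x, io (g * k) x = io g x) :
    DeltaRel 𝓝 (IndMod.pull A u) (GSub.rangeRestrict (IndMod.sigmaSub A σ)) 1
      (fun g => GSub.rangeRestrict (IndMod.sigmaSub A σ)
        (coefMul u (a : IndMod X A) (fun x => - io (g 0) x)))
      (fun x => (-(n (x 0) (x 1))) • (a : IndMod X A)) := by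
  refine ⟨fun g => coefMul u (a : IndMod X A) (fun x => - io (g 0) x), ?_, rfl, ?_⟩
  · obtain ⟨N, hN, h⟩ := hlev
    refine ⟨N, hN, fun g k hgk => ?_⟩
    have h1 : k 0 = g 0 * ((g 0)⁻¹ * k 0) := by group
    show coefMul u (a : IndMod X A) (fun x => - io (g 0) x) =
      coefMul u (a : IndMod X A) (fun x => - io (k 0) x)
    congr 1
    funext x
    rw [h1, h _ _ (hgk 0)]
  · funext x
    rw [dd_one_apply, smul_coefMul]
    ext y
    show ((-(n (x 0) (x 1))) • (a : IndMod X A)) (u y) = _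
    simp only [IndMod.zsmul_apply, IndMod.add_apply, IndMod.sub_apply, coefMul_apply]
    rw [← sub_smul, ← add_smul]
    congr 1
    have := hcoc (x 0) (x 1) y
    linarith

end ThetaCup

section C05

variable {X' X : Type} [MulAction G X'] [MulAction G X] [Finite X'] [SmoothSet 𝓝 X']
  {A : Type} [AddCommGroup A] [DistribMulAction G A] [Smooth 𝓝 A]

theorem theta_eq_neg_cup {u : X' →[G] X} {σ : X' →[G] X'} {m : ℕ} (hc : CyclicCover u σ m)
    (h4 : FourTerm (IndMod.pull A u) (GSub.rangeRestrict (IndMod.sigmaSub A σ))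
      (GSub.range (IndMod.sigmaSub A σ)).inclG (IndMod.push A u))
    (χ : Chr 𝓝) (κ : X' → QZ) (hκσ : ∀ x, κ (σ x) = κ x + toQZ (1 / (m : ℚ)))
    (hκg : ∀ (g : G) x, κ (g • x) = κ x + Chr.ev 𝓝 g χ) (a : inv0 G (IndMod X A)) :
    h4.theta (𝓝 := 𝓝) 0 (Hsm.H0equiv.symm a) = - cup 𝓝 a χ := by
  obtain ⟨s, hs⟩ : ∃ s : QZ → ℚ, ∀ q, toQZ (s q) = q :=
    ⟨_, Function.surjInv_eq toQZ_surjective⟩
  have he : ∀ x, ∃ e : ℤ, (e : ℚ) = 1 / (m : ℚ) - s (κ (σ x)) + s (κ x) := by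
    intro x
    apply (toQZ_eq_zero_iff _).1
    rw [map_add, map_sub, hs, hs, hκσ]
    abel
  have hio : ∀ (g : G) x, ∃ i : ℤ,
      (i : ℚ) = s (κ (g⁻¹ • x)) - s (κ x) + s (Chr.ev 𝓝 g χ) := by
    intro g x
    apply (toQZ_eq_zero_iff _).1
    rw [map_add, map_sub, hs, hs, hs, hκg, Chr.ev_inv]
    abel
  have hn : ∀ g h : G, ∃ n : ℤ,
      (n : ℚ) = s (Chr.ev 𝓝 h χ) - s (Chr.ev 𝓝 (g * h) χ) + s (Chr.ev 𝓝 g χ) := by
    intro g h
    apply (toQZ_eq_zero_iff _).1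
    rw [map_add, map_sub, hs, hs, hs, Chr.ev_mul]
    abel
  choose e he using he
  choose io hio using hio
  choose n hn using hn
  -- the three identities
  have hsum : ∀ x, ∑ k ∈ Finset.range m, e (σ^[k] x) = 1 := by
    intro x
    have h1 : ((∑ k ∈ Finset.range m, e (σ^[k] x) : ℤ) : ℚ) = 1 := by
      push_cast
      have h2 : ∀ k, (e (σ^[k] x) : ℚ) =
          1 / (m : ℚ) - (s (κ (σ^[k + 1] x)) - s (κ (σ^[k] x))) := by
        intro k
        rw [he, Function.iterate_succ_apply']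
        ring
      simp only [h2]
      rw [Finset.sum_sub_distrib, Finset.sum_range_sub (fun k => s (κ (σ^[k] x))), hc.pow,
        Function.iterate_zero, id, sub_self, sub_zero, Finset.sum_const, Finset.card_range,
        nsmul_eq_mul]
      have hm : (m : ℚ) ≠ 0 := Nat.cast_ne_zero.2 hc.pos.ne'
      field_simp
    exact_mod_cast h1
  have hσ : ∀ g x, io g (σ x) - io g x = - (e (g⁻¹ • x) - e x) := by
    intro g x
    have h1 : ((io g (σ x) - io g x : ℤ) : ℚ) = ((- (e (g⁻¹ • x) - e x) : ℤ) : ℚ) := by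
      push_cast
      rw [hio, hio, he, he, map_smul σ]
      ring
    exact_mod_cast h1
  have hcoc : ∀ g h x, io h (g⁻¹ • x) - io (g * h) x + io g x = n g h := by
    intro g h x
    have h1 : ((io h (g⁻¹ • x) - io (g * h) x + io g x : ℤ) : ℚ) = (n g h : ℚ) := by
      push_cast
      rw [hio, hio, hio, hn, mul_inv_rev, mul_smul]
      ring
    exact_mod_cast h1
  -- levels
  obtain ⟨N₁, hN₁, hfix⟩ := SmoothSet.exists_fix_all 𝓝 X'
  obtain ⟨N₂, hN₂, hχ⟩ := Chr.exists_level χ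
  obtain ⟨N, hN, hle⟩ := 𝓝.directed N₁ hN₁ N₂ hN₂
  have hct : ∀ g, ∀ k ∈ N, s (Chr.ev 𝓝 (g * k) χ) = s (Chr.ev 𝓝 g χ) := by
    intro g k hk
    rw [Chr.ev_mul, hχ k (hle hk).2, add_zero]
  have hlev : ∃ N ∈ 𝓝.carrier, ∀ g, ∀ k ∈ N, ∀ x, io (g * k) x = io g x := by
    refine ⟨N, hN, fun g k hk x => ?_⟩
    have h1 : (io (g * k) x : ℚ) = (io g x : ℚ) := by
      rw [hio, hio, hct g k hk, mul_inv_rev, mul_smul, hfix _ (N₁.inv_mem (hle hk).1)]
    exact_mod_cast h1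
  have hR := ThetaCup.deltaRel_right (𝓝 := 𝓝) hc a e io hsum hσ
  have hL := ThetaCup.deltaRel_left (𝓝 := 𝓝) (u := u) (σ := σ) a io n hcoc hlev
  rw [FourTerm.theta_apply, Hsm.H0equiv_symm_apply,
    Hsm.delta_mk h4.right _ ⟨_, hR.mem_Zsm h4.right⟩ hR,
    Hsm.delta_mk h4.left _ ⟨_, hL.mem_Zsm h4.left⟩ hL, cup_apply]
  obtain ⟨z, rfl⟩ := Hsm.mk_surjective (𝓝 := 𝓝) (A := TrivMod QZ) 1 χ
  have hD := ThetaCup.deltaRel_dchi z (fun g => s (Chr.ev 𝓝 g (Hsm.mk 𝓝 (TrivMod QZ) 1 z)))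
    (fun g => by rw [hs, Chr.ev_mk]) ⟨N, hN, hct⟩ n hn
  have hd : dchi 𝓝 (Hsm.mk 𝓝 (TrivMod QZ) 1 z) =
      Hsm.mk 𝓝 (TrivMod ℤ) 2 ⟨_, hD.mem_Zsm (shortExact_ZQ G)⟩ :=
    Hsm.delta_mk (shortExact_ZQ G) z ⟨_, hD.mem_Zsm (shortExact_ZQ G)⟩ hD
  rw [hd, Hsm.map_mk, ← map_neg]
  congr 1
  apply Subtype.ext
  funext x
  show (-(n (x 0) (x 1))) • (a : IndMod X A) = - ((n (x 0) (x 1)) • (a : IndMod X A))
  rw [neg_smul]

end C05

end Fermat.Agent.S55
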