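/-
S55 / block LOC-C07 (architect helper173, owner helper289): kernel of `· ∪ δχ` (= norms), kernel of
the restriction (= cup products), and `# ker(res) = [A^U : N A^V]` for a cyclic step of prime
degree.  `FourTermHyp` is defined in `Loc/Coh/HypDefs.lean`.
-/
import Fermat.Agent.S55.Loc.Coh.HypDefs
import Fermat.Agent.S55.Loc.Coh.FixNorm
import Fermat.Agent.S55.Loc.Coh.ThetaCup
import Fermat.Agent.S55.Loc.Coh.CosetCover

set_option autoImplicit false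

namespace Fermat.Agent.S55

variable {G : Type} [Group G] {𝓝 : LevelSys G}

namespace Loc

section C07

variable {A : Type} [AddCommGroup A] [DistribMulAction G A] [Smooth 𝓝 A]

omit [Smooth 𝓝 A] in
/-- every class of degree zero of `Map(G/U, A)` comes from an element of `A^U` -/
theorem exists_eq_H0equiv_symm_ofFix (U : Subgroup G) (y : Hsm 𝓝 (IndMod (G ⧸ U) A) 0) :
    ∃ b : fixA A U, y = Hsm.H0equiv.symm (ofFix U b) :=
  ⟨evFix U (Hsm.H0equiv y), by rw [ofFix_evFix, AddEquiv.symm_apply_apply]⟩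

omit [Smooth 𝓝 A] in
/-- the image of the corestriction in degree zero is the group of norms -/
theorem mem_range_map_push_iff {V U : Subgroup G} [Finite (G ⧸ V)] (h : V ≤ U)
    (hfin : V.relIndex U ≠ 0) (b : fixA A U) :
    Hsm.H0equiv.symm (ofFix U b) ∈
        Set.range (Hsm.map (𝓝 := 𝓝) (IndMod.push A (cosetMap h)) 0) ↔
      ∃ c ∈ fixA A V, nmA A V U c = b := by
  constructor
  · rintro ⟨y, hy⟩
    obtain ⟨c, rfl⟩ := exists_eq_H0equiv_symm_ofFix V y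
    have hc := nmA_mem_fixA h hfin c.2
    rw [Hsm.map_H0equiv_symm, map_push_ofFix h c hc] at hy
    have h1 := Hsm.H0equiv.symm.injective hy
    have h2 := congrArg (evFix U) h1
    rw [evFix_ofFix, evFix_ofFix] at h2
    exact ⟨c, c.2, congrArg Subtype.val h2⟩
  · rintro ⟨c, hc, hcb⟩
    refine ⟨Hsm.H0equiv.symm (ofFix V ⟨c, hc⟩), ?_⟩
    rw [Hsm.map_H0equiv_symm, map_push_ofFix h ⟨c, hc⟩ (nmA_mem_fixA h hfin hc)]
    congr 2
    exact Subtype.ext hcb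

/-- the four term sequence attached to a character, and its double connecting map -/
theorem exists_fourTerm_of_chr (h4 : FourTermHyp G A) {U : Subgroup G} (hU : 𝓝.IsOpen U)
    (χ : Chr 𝓝) [Finite (G ⧸ (U ⊓ Chr.ker χ : Subgroup G))]
    [SmoothSet 𝓝 (G ⧸ (U ⊓ Chr.ker χ : Subgroup G))] :
    ∃ (s : G) (hs : ∀ v ∈ U ⊓ Chr.ker χ, s⁻¹ * v * s ∈ U ⊓ Chr.ker χ)
      (h4' : FourTerm (IndMod.pull A (cosetMap (inf_le_left : U ⊓ Chr.ker χ ≤ U)))
        (GSub.rangeRestrict (IndMod.sigmaSub A (cosetRight (U ⊓ Chr.ker χ) s hs)))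
        (GSub.range (IndMod.sigmaSub A (cosetRight (U ⊓ Chr.ker χ) s hs))).inclG
        (IndMod.push A (cosetMap (inf_le_left : U ⊓ Chr.ker χ ≤ U)))),
      (U ⊓ Chr.ker χ).relIndex U ≠ 0 ∧
      ∀ a : inv0 G (IndMod (G ⧸ U) A),
        h4'.theta (𝓝 := 𝓝) 0 (Hsm.H0equiv.symm a) = - cup 𝓝 a χ := by
  obtain ⟨s, hs, m, -, hm0, hm, hχs, hc⟩ := exists_cyclicCover_of_chr hU χ
  obtain ⟨κ, hκ⟩ := exists_kappa χ (inf_le_right : U ⊓ Chr.ker χ ≤ Chr.ker χ)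
  refine ⟨s, hs, h4 _ _ _ _ m hc, by rw [hm]; exact hm0.ne', fun a => ?_⟩
  refine theta_eq_neg_cup hc _ χ κ ?_ ?_ a
  · intro x
    induction x using QuotientGroup.induction_on with
    | H g => rw [cosetRight_mk, hκ, hκ, Chr.ev_mul, hχs]
  · intro g x
    induction x using QuotientGroup.induction_on with
    | H y =>
      have h1 : g • (y : G ⧸ (U ⊓ Chr.ker χ : Subgroup G)) = ((g * y : G) : G ⧸ _) := rfl
      rw [h1, hκ, hκ, Chr.ev_mul, add_comm]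

theorem cupU_eq_zero_iff (h4 : FourTermHyp G A) {U : Subgroup G} (hU : 𝓝.IsOpen U) (χ : Chr 𝓝)
    (h90 : ∀ x : Hsm 𝓝 (IndMod (G ⧸ (U ⊓ Chr.ker χ : Subgroup G)) A) 1, x = 0) (b : fixA A U) :
    cupU 𝓝 U b χ = 0 ↔ ∃ c ∈ fixA A (U ⊓ Chr.ker χ), nmA A (U ⊓ Chr.ker χ) U c = b := by
  have hV : 𝓝.IsOpen (U ⊓ Chr.ker χ) := hU.inf (Chr.isOpen_ker χ)
  have := hV.finiteIndex
  have : Finite (G ⧸ (U ⊓ Chr.ker χ : Subgroup G)) := Subgroup.finite_quotient_of_finiteIndex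
  have := SmoothSet.quotient 𝓝 hV
  obtain ⟨s, hs, h4', hfin, hθ⟩ := exists_fourTerm_of_chr h4 hU χ
  rw [← mem_range_map_push_iff (𝓝 := 𝓝) inf_le_left hfin b, ← h4'.theta_eq_zero_iff 0 h90, hθ,
    neg_eq_zero]
  rfl

theorem resBr_eq_zero_iff (h4 : FourTermHyp G A) {U : Subgroup G} (hU : 𝓝.IsOpen U) (χ : Chr 𝓝)
    (h90 : ∀ x : Hsm 𝓝 (IndMod (G ⧸ (U ⊓ Chr.ker χ : Subgroup G)) A) 1, x = 0) (x : Br 𝓝 A U) :
    resBr 𝓝 A (inf_le_left : U ⊓ Chr.ker χ ≤ U) x = 0 ↔ ∃ b : fixA A U, x = cupU 𝓝 U b χ := by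
  have hV : 𝓝.IsOpen (U ⊓ Chr.ker χ) := hU.inf (Chr.isOpen_ker χ)
  have := hV.finiteIndex
  have : Finite (G ⧸ (U ⊓ Chr.ker χ : Subgroup G)) := Subgroup.finite_quotient_of_finiteIndex
  have := SmoothSet.quotient 𝓝 hV
  obtain ⟨s, hs, h4', hfin, hθ⟩ := exists_fourTerm_of_chr h4 hU χ
  have key := h4'.mem_range_theta_iff (𝓝 := 𝓝) 0 h90 x
  constructor
  · intro hx
    obtain ⟨y, hy⟩ := key.2 hx
    obtain ⟨b, rfl⟩ := exists_eq_H0equiv_symm_ofFix U y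
    refine ⟨-b, ?_⟩
    rw [← hy, hθ, cupU, map_neg, cup_neg_left]
  · rintro ⟨b, rfl⟩
    refine key.1 ⟨Hsm.H0equiv.symm (ofFix U (-b)), ?_⟩
    rw [hθ, map_neg, cup_neg_left, neg_neg]
    rfl

/-- a cyclic step of prime degree: `ker(res) ≃ A^U / N A^V` -/
theorem card_ker_resBr (h4 : FourTermHyp G A) {V U : Subgroup G} (hV : 𝓝.IsOpen V) (h : V ≤ U)
    (hn : (V.subgroupOf U).Normal) {ℓ : ℕ} (hℓ : ℓ.Prime) (hi : V.relIndex U = ℓ)
    (h90 : ∀ x : Hsm 𝓝 (IndMod (G ⧸ V) A) 1, x = 0) :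
    Nat.card (resBr 𝓝 A h).ker = (normSub A V U).relIndex (fixA A U) := by
  have := hV.finiteIndex
  have : Finite (G ⧸ V) := Subgroup.finite_quotient_of_finiteIndex
  have := SmoothSet.quotient 𝓝 hV
  have hfin : V.relIndex U ≠ 0 := by rw [hi]; exact hℓ.ne_zero
  obtain ⟨s, hs, -, hc⟩ := exists_cyclicCover_of_prime h hn hℓ hi
  have h4' := h4 _ _ _ _ ℓ hc
  -- the kernel of the restriction is the range of `theta`
  have h1 : (resBr 𝓝 A h).ker = (h4'.theta (𝓝 := 𝓝) 0).range := by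
    ext z
    rw [AddMonoidHom.mem_ker, AddMonoidHom.mem_range]
    exact (h4'.mem_range_theta_iff (𝓝 := 𝓝) 0 h90 z).symm
  -- the kernel of `theta` corresponds to the norms
  let e : Hsm 𝓝 (IndMod (G ⧸ U) A) 0 ≃+ fixA A U := Hsm.H0equiv.trans (fixEquiv U)
  have h2 : (h4'.theta (𝓝 := 𝓝) 0).ker =
      ((normSub A V U).addSubgroupOf (fixA A U)).comap e.toAddMonoidHom := by
    ext y
    obtain ⟨b, rfl⟩ := exists_eq_H0equiv_symm_ofFix U y
    rw [AddMonoidHom.mem_ker, h4'.theta_eq_zero_iff 0 h90, mem_range_map_push_iff h hfin b,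
      AddSubgroup.mem_comap, AddSubgroup.mem_addSubgroupOf, mem_normSub_iff hfin]
    have h3 : e.toAddMonoidHom (Hsm.H0equiv.symm (ofFix U b)) = b := by
      show evFix U (Hsm.H0equiv (Hsm.H0equiv.symm (ofFix U b))) = b
      rw [AddEquiv.apply_symm_apply, evFix_ofFix]
    rw [h3]
  rw [h1, AddSubgroup.relIndex,
    ← AddSubgroup.index_comap_of_surjective (f := e.toAddMonoidHom) _ e.surjective, ← h2,
    AddSubgroup.index_ker]

end C07

end Loc

end Fermat.Agent.S55
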