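/-
S55 / block LOC-C03 : `b ∪ δχ = 0` in `Br(U)` when the character `χ` is trivial on `U`.

`X = G ⧸ U` (finite, smooth).  `zmap (ofFix U b) = μ_b ∘ const` with
`const : TrivMod ℤ → IndMod X (TrivMod ℤ)` and `μ_b n = (x ↦ (n x).val • ofFix U b x)`.
By naturality of the connecting map `const_* (δ χ) = δ_X (const_* χ)`, and `const_* χ = 0` in
`H^1(IndMod X (TrivMod QZ))`: it is the coboundary of the 0-cochain `g U ↦ - χ(g)`.
-/
import Fermat.Agent.S55.Loc.Coh.LocDefs
import Fermat.Agent.S55.Coh.IndApi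

set_option autoImplicit false

namespace Fermat.Agent.S55

variable {G : Type} [Group G] {𝓝 : LevelSys G}

/-- Multiplication of integer valued functions with an invariant function. -/
def IndMod.mulInv {X M : Type} [MulAction G X] [AddCommGroup M] [DistribMulAction G M]
    (m : inv0 G (IndMod X M)) : IndMod X (TrivMod ℤ) →+[G] IndMod X M where
  toFun n := IndMod.of fun x => (n x).val • (m : IndMod X M) x
  map_smul' g n := by
    ext x
    have h1 := congrArg (fun f : IndMod X M => f x) (mem_inv0.1 m.2 g)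
    simp only [IndMod.smul_apply] at h1
    show (n (g⁻¹ • x)).val • (m : IndMod X M) x =
      g • ((n (g⁻¹ • x)).val • (m : IndMod X M) (g⁻¹ • x))
    rw [smul_comm, h1]
  map_zero' := by
    ext x
    exact zero_smul _ _
  map_add' n n' := by
    ext x
    exact add_smul _ _ _

theorem IndMod.mulInv_const {X M : Type} [MulAction G X] [AddCommGroup M] [DistribMulAction G M]
    (m : inv0 G (IndMod X M)) (n : TrivMod ℤ) :
    zmap m n = IndMod.mulInv m (IndMod.const (G := G) X (TrivMod ℤ) n) := rfl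

/-- The function `g U ↦ - χ(g)` for a character trivial on `U`. -/
theorem Chr.exists_negKappa {U : Subgroup G} (χ : Chr 𝓝) (h : U ≤ Chr.ker χ) :
    ∃ κ : IndMod (G ⧸ U) (TrivMod QZ), ∀ g : G, (κ (g : G ⧸ U)).val = - Chr.ev 𝓝 g χ := by
  refine ⟨IndMod.of (Quotient.lift (fun g : G => TrivMod.of (- Chr.ev 𝓝 g χ)) ?_), fun g => rfl⟩
  intro x y hxy
  have h1 : x⁻¹ * y ∈ U := QuotientGroup.leftRel_apply.1 hxy
  have h2 : Chr.ev 𝓝 (x⁻¹ * y) χ = 0 := h h1
  rw [Chr.ev_mul, Chr.ev_inv] at h2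
  show TrivMod.of (- Chr.ev 𝓝 x χ) = TrivMod.of (- Chr.ev 𝓝 y χ)
  have h3 : Chr.ev 𝓝 x χ = Chr.ev 𝓝 y χ := by
    have := neg_add_eq_zero.1 h2
    exact this
  rw [h3]

/-- A character trivial on `U` dies in `H^1(Map(G/U, ℚ/ℤ))`. -/
theorem Chr.map_const_eq_zero {U : Subgroup G} (χ : Chr 𝓝) (h : U ≤ Chr.ker χ) :
    Hsm.map (IndMod.const (G ⧸ U) (TrivMod QZ)) 1 χ = 0 := by
  obtain ⟨κ, hκ⟩ := Chr.exists_negKappa χ h
  induction χ using Hsm.induction_on with
  | _ z =>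
    rw [Hsm.map_mk, Hsm.mk_eq_zero_iff]
    refine ⟨fun _ => κ, ?_, ?_⟩
    · obtain ⟨N, hN⟩ := 𝓝.nonempty
      exact ⟨N, hN, fun _ _ _ => rfl⟩
    · funext x
      rw [dd_zero_apply]
      ext y
      induction y using QuotientGroup.induction_on with
      | H y =>
        have hx : x = fun _ => x 0 := by
          funext i; fin_cases i; rfl
        have e1 : ((x 0)⁻¹ • (y : G ⧸ U)) = (((x 0)⁻¹ * y : G) : G ⧸ U) := rfl
        show (κ ((x 0)⁻¹ • (y : G ⧸ U))).val - (κ (y : G ⧸ U)).val =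
          ((z : (Fin 1 → G) → TrivMod QZ) x).val
        rw [e1, hκ, hκ, Chr.ev_mul, Chr.ev_inv, Chr.ev_mk, Chr.ev_mk, ← hx]
        abel

section C03

variable {A : Type} [AddCommGroup A] [DistribMulAction G A]

theorem Loc.cupU_eq_zero_of_le_ker {U : Subgroup G} (hU : 𝓝.IsOpen U) (χ : Chr 𝓝)
    (h : U ≤ Chr.ker χ) (b : Loc.fixA A U) : Loc.cupU 𝓝 U b χ = 0 := by
  have : U.FiniteIndex := hU.finiteIndex
  have : Finite (G ⧸ U) := Subgroup.finite_quotient_of_finiteIndex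
  have : SmoothSet 𝓝 (G ⧸ U) := SmoothSet.quotient 𝓝 hU
  show Hsm.map (zmap (Loc.ofFix U b)) 2 (Hsm.delta (shortExact_ZQ G) 1 χ) = 0
  rw [Hsm.map_comp' (IndMod.mulInv_const (Loc.ofFix U b)) 2,
    ← Hsm.delta_naturality (shortExact_ZQ G)
      (IndMod.shortExact_mapCoeff (G ⧸ U) (shortExact_ZQ G))
      (IndMod.const (G ⧸ U) (TrivMod ℤ)) (IndMod.const (G ⧸ U) (TrivMod ℚ))
      (IndMod.const (G ⧸ U) (TrivMod QZ)) (fun _ => rfl) (fun _ => rfl) 1 χ,
    Chr.map_const_eq_zero χ h, map_zero, map_zero]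

end C03

end Fermat.Agent.S55
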