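/-
S55 / block LOC-C, node LOC-L01: formal properties of `w_U = v ∘ N_{U → Γ}`, existence of
"uniformisers" (`exists_unif`, `exists_unif0`).  Statements verbatim from `Loc/WIP/Skeleton2.lean`.
-/
import Fermat.Agent.S55.Loc.Coh.FixNormA
import Fermat.Agent.S55.Loc.Coh.QZ

set_option autoImplicit false

namespace Fermat.Agent.S55.Loc

variable {Γ : Type} [Group Γ] {𝓝 : LevelSys Γ} {A : Type} [AddCommGroup A] [DistribMulAction Γ A]

namespace LocalInput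

variable (I : LocalInput 𝓝 A)

section L01

theorem w_add {U : Subgroup Γ} (hU : 𝓝.IsOpen U) {a b : A} (ha : a ∈ fixA A U)
    (hb : b ∈ fixA A U) : I.w U (a + b) = I.w U a + I.w U b := by
  have hfin : U.index ≠ 0 := hU.finiteIndex.index_ne_zero
  unfold LocalInput.w
  rw [nmTop_add hfin]
  exact I.v_add _ (nmTop_mem hfin ha) _ (nmTop_mem hfin hb)

theorem v_zero_aux : I.v 0 = 0 := by
  have h := I.v_add 0 (zero_mem _) 0 (zero_mem _)
  rw [add_zero] at h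
  exact add_eq_left.1 h.symm

theorem w_zero (U : Subgroup Γ) : I.w U 0 = 0 := by
  have h : nmTop A U (0 : A) = 0 := by
    unfold nmTop
    simp only [smul_zero]
    exact finsum_zero
  unfold LocalInput.w
  rw [h]
  exact I.v_zero_aux

/-- `w_U` as an additive map on `A^U`. -/
noncomputable def wHom {U : Subgroup Γ} (hU : 𝓝.IsOpen U) : fixA A U →+ ℤ where
  toFun a := I.w U (a : A)
  map_zero' := I.w_zero U
  map_add' a b := I.w_add hU a.2 b.2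

theorem wHom_apply {U : Subgroup Γ} (hU : 𝓝.IsOpen U) (a : fixA A U) :
    I.wHom hU a = I.w U (a : A) := rfl

theorem w_neg {U : Subgroup Γ} (hU : 𝓝.IsOpen U) {a : A} (ha : a ∈ fixA A U) :
    I.w U (-a) = - I.w U a :=
  map_neg (I.wHom hU) ⟨a, ha⟩

theorem w_zsmul {U : Subgroup Γ} (hU : 𝓝.IsOpen U) (k : ℤ) {a : A} (ha : a ∈ fixA A U) :
    I.w U (k • a) = k * I.w U a := by
  have h := map_zsmul (I.wHom hU) k ⟨a, ha⟩
  rw [smul_eq_mul] at h
  exact h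

theorem w_top {a : A} (ha : a ∈ fixA A (⊤ : Subgroup Γ)) : I.w ⊤ a = I.v a := by
  unfold LocalInput.w
  rw [nmTop_top ha]

theorem w_nmA {V U : Subgroup Γ} (hV : 𝓝.IsOpen V) (h : V ≤ U) {b : A} (hb : b ∈ fixA A V) :
    I.w U (nmA A V U b) = I.w V b := by
  unfold LocalInput.w
  rw [nmTop_nmA h hV.finiteIndex.index_ne_zero hb]

theorem w_of_le {V U : Subgroup Γ} (hV : 𝓝.IsOpen V) (h : V ≤ U) {a : A} (ha : a ∈ fixA A U) :
    I.w V a = (V.relIndex U : ℤ) * I.w U a := by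
  rw [← I.w_nmA hV h (fixA_mono h ha), nmA_of_mem_fixA h ha, ← natCast_zsmul,
    I.w_zsmul (hV.mono h) _ ha]

/-- a "uniformiser" of `U`: `w_U(π) = f_U > 0` generates the image of `w_U`, and `χ_r` is trivial
on `U` iff `f_U r = 0` (from `ar1`, `ar2`, `QZ.dvd_of_forall`) -/
theorem exists_unif {U : Subgroup Γ} (hU : 𝓝.IsOpen U) :
    ∃ π ∈ fixA A U, 0 < I.w U π ∧ (∀ r, I.w U π • r = 0 ↔ ∀ u ∈ U, I.chi r u = 0) ∧
      ∀ a ∈ fixA A U, ∃ k : ℤ, I.w U a = k * I.w U π := by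
  -- it is enough to find `π` with `w_U π ≠ 0`, up to sign
  have key : ∀ π ∈ fixA A U, 0 < I.w U π → (∀ r, I.w U π • r = 0 → ∀ u ∈ U, I.chi r u = 0) →
      ∃ π ∈ fixA A U, 0 < I.w U π ∧ (∀ r, I.w U π • r = 0 ↔ ∀ u ∈ U, I.chi r u = 0) ∧
        ∀ a ∈ fixA A U, ∃ k : ℤ, I.w U a = k * I.w U π := by
    intro π hπ hpos h2
    refine ⟨π, hπ, hpos, fun r => ⟨h2 r, fun h => I.ar1 U hU r h π hπ⟩, fun a ha => ?_⟩
    obtain ⟨k, hk⟩ := QZ.dvd_of_forall (I.w U π) (I.w U a) hpos.ne'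
      (fun r hr => I.ar1 U hU r (h2 r hr) a ha)
    exact ⟨k, by rw [hk, mul_comm]⟩
  obtain ⟨π, hπ, hne, h2⟩ := I.ar2 U hU
  have hne' : I.w U π ≠ 0 := hne
  have h2' : ∀ r, I.w U π • r = 0 → ∀ u ∈ U, I.chi r u = 0 := h2
  rcases lt_or_gt_of_ne hne' with hlt | hgt
  · refine key (-π) (neg_mem hπ) ?_ ?_
    · rw [I.w_neg hU hπ]
      exact neg_pos.2 hlt
    · intro r hr
      rw [I.w_neg hU hπ, neg_smul, neg_eq_zero] at hr
      exact h2' r hr
  · exact key π hπ hgt h2'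

/-- a uniformiser of the base field (`exists_unif` for `U = ⊤` and `chi_frob`) -/
theorem exists_unif0 : ∃ π0 : inv0 Γ A, I.v (π0 : A) = 1 := by
  obtain ⟨π, hπ, hpos, h2, -⟩ := I.exists_unif (𝓝.isOpen_top)
  rw [I.w_top hπ] at hpos h2
  refine ⟨⟨π, fixA_top_eq (G := Γ) (A := A) ▸ hπ⟩, ?_⟩
  show I.v π = 1
  obtain ⟨n, hn⟩ := Int.eq_ofNat_of_zero_le hpos.le
  have hn0 : 0 < n := by
    rw [hn] at hpos
    exact_mod_cast hpos
  have h3 : I.v π • toQZ (1 / (n : ℚ)) = 0 := by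
    rw [QZ.zsmul_toQZ_inv_eq_zero_iff n hn0, hn]
  have h4 := (h2 _).1 h3 I.frob (Subgroup.mem_top _)
  rw [I.chi_frob] at h4
  have h5 : (1 : ℤ) • toQZ (1 / (n : ℚ)) = 0 := by rw [one_smul, h4]
  rw [QZ.zsmul_toQZ_inv_eq_zero_iff n hn0] at h5
  have h6 : n = 1 := by
    have : n ∣ 1 := by exact_mod_cast h5
    exact Nat.dvd_one.1 this
  rw [hn, h6]
  rfl

end L01

end LocalInput

end Fermat.Agent.S55.Loc
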