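/-
S55 / block LOC-C, section LOC-L02 (architect helper173, proofs helper222).
THEOREM T1: `a ∪ δχ_r = 0 ⇔ w_U(a) r = 0`.
-/
import Fermat.Agent.S55.Loc.Coh.HypDefs
import Fermat.Agent.S55.Loc.Coh.CupApi
import Fermat.Agent.S55.Loc.Coh.CupRes
import Fermat.Agent.S55.Loc.Coh.FixNorm
import Fermat.Agent.S55.Loc.Coh.CupKer
import Fermat.Agent.S55.Loc.Coh.W

set_option autoImplicit false

namespace Fermat.Agent.S55.Loc

variable {Γ : Type} [Group Γ] {𝓝 : LevelSys Γ} {A : Type} [AddCommGroup A] [DistribMulAction Γ A]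

/-- `cupU` is additive in the first variable -/
theorem T1.cupU_add (U : Subgroup Γ) (a b : fixA A U) (χ : Chr 𝓝) :
    cupU 𝓝 U (a + b) χ = cupU 𝓝 U a χ + cupU 𝓝 U b χ := by
  unfold cupU
  rw [map_add, cup_add_left]

theorem T1.cupU_zsmul (U : Subgroup Γ) (k : ℤ) (a : fixA A U) (χ : Chr 𝓝) :
    cupU 𝓝 U (k • a) χ = k • cupU 𝓝 U a χ := by
  unfold cupU
  rw [map_zsmul, cup_zsmul_left]

namespace LocalInput

variable (I : LocalInput 𝓝 A)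

section L02

variable [Smooth 𝓝 A]

theorem cupU_ur_of_w_eq_zero {U : Subgroup Γ} (hU : 𝓝.IsOpen U) (a : fixA A U)
    (ha : I.w U a = 0) (r : QZ) : cupU 𝓝 U a (I.ur r) = 0 := by
  have hV : 𝓝.IsOpen (U ⊓ Chr.ker (I.ur r)) := hU.inf (Chr.isOpen_ker _)
  have hfi := hV.finiteIndex
  obtain ⟨b, hb, hba⟩ := I.ar3 U hU a a.2 ha r (U ⊓ Chr.ker (I.ur r)) (fun γ => by
    rw [Subgroup.mem_inf, Chr.mem_ker, ev_ur])
  have hb' : nmA A (U ⊓ Chr.ker (I.ur r)) U b ∈ fixA A U := by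
    rw [hba]; exact a.2
  have h1 := corBr_cupU (𝓝 := 𝓝) (inf_le_left : U ⊓ Chr.ker (I.ur r) ≤ U) ⟨b, hb⟩ hb' (I.ur r)
  rw [cupU_eq_zero_of_le_ker hV (I.ur r) inf_le_right, map_zero] at h1
  have h2 : (⟨nmA A (U ⊓ Chr.ker (I.ur r)) U b, hb'⟩ : fixA A U) = a := Subtype.ext hba
  rw [← h2]
  exact h1.symm

/-- reduction to a uniformiser -/
theorem T1_cupU_ur_eq_unif {U : Subgroup Γ} (hU : 𝓝.IsOpen U) (π a : fixA A U) (k : ℤ)
    (hk : I.w U a = k * I.w U π) (r : QZ) :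
    cupU 𝓝 U a (I.ur r) = cupU 𝓝 U π (I.ur (k • r)) := by
  have hu : I.w U ((a - k • π : fixA A U) : A) = 0 := by
    have e : ((a - k • π : fixA A U) : A) = (a : A) + -(k • (π : A)) := by
      push_cast
      exact sub_eq_add_neg _ _
    have hkπ : k • (π : A) ∈ fixA A U := (fixA A U).zsmul_mem π.2 k
    rw [e, I.w_add hU a.2 ((fixA A U).neg_mem hkπ), I.w_neg hU hkπ, I.w_zsmul hU k π.2, hk]
    ring
  have h0 := I.cupU_ur_of_w_eq_zero hU (a - k • π) hu r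
  have e1 : a = (a - k • π) + k • π := by abel
  conv_lhs => rw [e1]
  rw [T1.cupU_add, h0, zero_add, T1.cupU_zsmul, map_zsmul, map_zsmul]

theorem cupU_ur_eq_zero_of {U : Subgroup Γ} (hU : 𝓝.IsOpen U) (a : fixA A U) (r : QZ)
    (h : I.w U a • r = 0) : cupU 𝓝 U a (I.ur r) = 0 := by
  obtain ⟨π, hπ, -, hchi, hgen⟩ := I.exists_unif hU
  obtain ⟨k, hk⟩ := hgen a a.2
  rw [I.T1_cupU_ur_eq_unif hU ⟨π, hπ⟩ a k hk r]
  refine cupU_eq_zero_of_le_ker hU _ ?_ _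
  intro u hu
  rw [Chr.mem_ker, ev_ur]
  refine (hchi (k • r)).1 ?_ u hu
  rw [smul_smul, mul_comm, ← hk]
  exact h

theorem w_smul_eq_zero_of_cupU (h4 : FourTermHyp Γ A) {U : Subgroup Γ} (hU : 𝓝.IsOpen U)
    (a : fixA A U) (r : QZ) (h : cupU 𝓝 U a (I.ur r) = 0) : I.w U a • r = 0 := by
  have hV : 𝓝.IsOpen (U ⊓ Chr.ker (I.ur r)) := hU.inf (Chr.isOpen_ker _)
  obtain ⟨c, hc, hca⟩ := (cupU_eq_zero_iff h4 hU (I.ur r) (I.h90 _ hV) a).1 h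
  rw [← hca, I.w_nmA hV inf_le_left hc]
  refine I.ar1 _ hV r ?_ c hc
  intro u hu
  have := (Subgroup.mem_inf.1 hu).2
  rwa [Chr.mem_ker, ev_ur] at this

theorem cupU_ur_eq_zero_iff (h4 : FourTermHyp Γ A) {U : Subgroup Γ} (hU : 𝓝.IsOpen U)
    (a : fixA A U) (r : QZ) : cupU 𝓝 U a (I.ur r) = 0 ↔ I.w U a • r = 0 :=
  ⟨I.w_smul_eq_zero_of_cupU h4 hU a r, I.cupU_ur_eq_zero_of hU a r⟩

theorem cupU_ur_eq_cupU_ur {U : Subgroup Γ} (hU : 𝓝.IsOpen U) (a a' : fixA A U) (r r' : QZ)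
    (h : I.w U a • r = I.w U a' • r') : cupU 𝓝 U a (I.ur r) = cupU 𝓝 U a' (I.ur r') := by
  obtain ⟨π, hπ, -, -, hgen⟩ := I.exists_unif hU
  obtain ⟨k, hk⟩ := hgen a a.2
  obtain ⟨k', hk'⟩ := hgen a' a'.2
  rw [I.T1_cupU_ur_eq_unif hU ⟨π, hπ⟩ a k hk r, I.T1_cupU_ur_eq_unif hU ⟨π, hπ⟩ a' k' hk' r',
    ← sub_eq_zero, ← map_sub, ← map_sub]
  refine I.cupU_ur_eq_zero_of hU ⟨π, hπ⟩ _ ?_
  rw [smul_sub, smul_smul, smul_smul, mul_comm, mul_comm _ k', sub_eq_zero]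
  change (k * I.w U π) • r = (k' * I.w U π) • r'
  rw [← hk, ← hk']
  exact h

theorem mem_BrUr_iff {U : Subgroup Γ} (hU : 𝓝.IsOpen U) (c : Br 𝓝 A U) :
    c ∈ I.BrUr U ↔ ∃ (b : fixA A U) (r : QZ), c = cupU 𝓝 U b (I.ur r) := by
  constructor
  · intro hc
    obtain ⟨π, hπ, -, -, hgen⟩ := I.exists_unif hU
    have key : ∀ c ∈ I.BrUr U, ∃ s : QZ, c = cupU 𝓝 U ⟨π, hπ⟩ (I.ur s) := by
      intro c hc
      unfold BrUr at hc
      induction hc using AddSubgroup.closure_induction with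
      | mem x hx =>
        obtain ⟨b, r, rfl⟩ := hx
        obtain ⟨k, hk⟩ := hgen b b.2
        exact ⟨k • r, I.T1_cupU_ur_eq_unif hU ⟨π, hπ⟩ b k hk r⟩
      | zero => exact ⟨0, by rw [map_zero, map_zero]⟩
      | add x y _ _ hx hy =>
        obtain ⟨s, rfl⟩ := hx
        obtain ⟨t, rfl⟩ := hy
        exact ⟨s + t, by rw [map_add, map_add]⟩
      | neg x _ hx =>
        obtain ⟨s, rfl⟩ := hx
        exact ⟨-s, by rw [map_neg, map_neg]⟩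
    obtain ⟨s, hs⟩ := key c hc
    exact ⟨⟨π, hπ⟩, s, hs⟩
  · rintro ⟨b, r, rfl⟩
    exact AddSubgroup.subset_closure ⟨b, r, rfl⟩

end L02

end LocalInput

end Fermat.Agent.S55.Loc
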