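/-
S55 / block LOC-C, task LOC-L03 : unramifiedness ascends along cyclic steps of prime degree; descent.
-/
import Fermat.Agent.S55.Loc.Coh.T1
import Fermat.Agent.S55.Loc.Coh.CupKer

set_option autoImplicit false

namespace Fermat.Agent.S55.Loc

variable {Γ : Type} [Group Γ] {𝓝 : LevelSys Γ} {A : Type} [AddCommGroup A] [DistribMulAction Γ A]

namespace LocalInput

variable (I : LocalInput 𝓝 A)

variable [Smooth 𝓝 A]

theorem step (h4 : FourTermHyp Γ A) {V U : Subgroup Γ} (hV : 𝓝.IsOpen V) (h : V ≤ U)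
    (hn : (V.subgroupOf U).Normal) (hp : (V.relIndex U).Prime) (c : Br 𝓝 A U)
    (hc : resBr 𝓝 A h c ∈ I.BrUr V) : c ∈ I.BrUr U := by
  have hU : 𝓝.IsOpen U := hV.mono h
  obtain ⟨b, s, hbs⟩ := (I.mem_BrUr_iff hV _).1 hc
  obtain ⟨π, hπ, hpos, -, -⟩ := I.exists_unif hU
  have hℓ0 : ((V.relIndex U : ℕ) : ℤ) ≠ 0 := Int.natCast_ne_zero.2 hp.ne_zero
  -- the class `c'`
  obtain ⟨r, hr⟩ := QZ.exists_zsmul_eq (((V.relIndex U : ℕ) : ℤ) * I.w U π)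
    (mul_ne_zero hℓ0 hpos.ne') (I.w V b • s)
  have hres : resBr 𝓝 A h (cupU 𝓝 U ⟨π, hπ⟩ (I.ur r)) = resBr 𝓝 A h c := by
    rw [hbs, resBr_cupU]
    apply I.cupU_ur_eq_cupU_ur hV
    show I.w V π • r = I.w V b • s
    rw [I.w_of_le hV h hπ, hr]
  -- the kernel of the restriction has `ℓ` elements
  have hcard : Nat.card (resBr 𝓝 A h).ker = V.relIndex U := by
    rw [card_ker_resBr h4 hV h hn hp rfl (I.h90 V hV), I.ar4 U V hV h hn _ hp rfl]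
  -- a nonzero unramified element of the kernel
  obtain ⟨r0, hr0⟩ := QZ.exists_zsmul_eq (I.w U π) hpos.ne' (toQZ (1 / ((V.relIndex U : ℕ) : ℚ)))
  have hc0ker : cupU 𝓝 U ⟨π, hπ⟩ (I.ur r0) ∈ (resBr 𝓝 A h).ker := by
    rw [AddMonoidHom.mem_ker, resBr_cupU]
    apply I.cupU_ur_eq_zero_of hV
    show I.w V π • r0 = 0
    rw [I.w_of_le hV h hπ, mul_smul, hr0]
    exact (QZ.zsmul_toQZ_inv_eq_zero_iff _ hp.pos _).2 dvd_rfl
  have hc0ne : cupU 𝓝 U ⟨π, hπ⟩ (I.ur r0) ≠ 0 := by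
    intro h0
    have h1 := I.w_smul_eq_zero_of_cupU h4 hU ⟨π, hπ⟩ r0 h0
    have h2 : (1 : ℤ) • toQZ (1 / ((V.relIndex U : ℕ) : ℚ)) = 0 := by
      rw [one_smul, ← hr0]
      exact h1
    have h3 := (QZ.zsmul_toQZ_inv_eq_zero_iff _ hp.pos _).1 h2
    have h4' : (V.relIndex U : ℕ) ∣ 1 := Int.natCast_dvd_natCast.1 (by simpa using h3)
    exact hp.one_lt.ne' (Nat.dvd_one.1 h4')
  have : Fact (V.relIndex U).Prime := ⟨hp⟩
  have hmem : (⟨c - cupU 𝓝 U ⟨π, hπ⟩ (I.ur r), by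
      rw [AddMonoidHom.mem_ker, map_sub, hres, sub_self]⟩ : (resBr 𝓝 A h).ker) ∈
      AddSubgroup.zmultiples (⟨_, hc0ker⟩ : (resBr 𝓝 A h).ker) :=
    mem_zmultiples_of_prime_card hcard (fun h0 => hc0ne (congrArg Subtype.val h0))
  obtain ⟨k, hk⟩ := AddSubgroup.mem_zmultiples_iff.1 hmem
  have hk' : k • cupU 𝓝 U ⟨π, hπ⟩ (I.ur r0) = c - cupU 𝓝 U ⟨π, hπ⟩ (I.ur r) :=
    congrArg Subtype.val hk
  have hc' : c = cupU 𝓝 U ⟨π, hπ⟩ (I.ur (k • r0 + r)) := by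
    rw [map_add, map_add, map_zsmul, map_zsmul, hk', sub_add_cancel]
  exact (I.mem_BrUr_iff hU c).2 ⟨_, _, hc'⟩

/-- descent: `res c` unramified ⇒ `[U:V] c = cor (res c)` unramified -/
theorem desc {V U : Subgroup Γ} (hV : 𝓝.IsOpen V) (h : V ≤ U) (c : Br 𝓝 A U)
    (hc : resBr 𝓝 A h c ∈ I.BrUr V) : V.relIndex U • c ∈ I.BrUr U := by
  have hU : 𝓝.IsOpen U := hV.mono h
  have := hV.finiteIndex
  have : Finite (Γ ⧸ V) := Subgroup.finite_quotient_of_finiteIndex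
  obtain ⟨b, s, hbs⟩ := (I.mem_BrUr_iff hV _).1 hc
  have hfin : V.relIndex U ≠ 0 := by
    intro h0
    have := Subgroup.relIndex_mul_index h
    rw [h0, zero_mul] at this
    exact hV.finiteIndex.index_ne_zero this.symm
  rw [← corBr_resBr h c, hbs, corBr_cupU h b (nmA_mem_fixA h hfin b.2)]
  exact (I.mem_BrUr_iff hU _).2 ⟨_, _, rfl⟩

end LocalInput

end Fermat.Agent.S55.Loc
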