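/-
S55 / block LOC-C, node LOC-C08 (owner helper127): pure group theory.
Sylow subgroups + subnormal series of `p`-groups, applied to the finite group `U/V`.
-/
import Mathlib

set_option autoImplicit false

namespace Fermat.Agent.S55

namespace SylowTower

/-- In a finite group, a property of subgroups which holds for `⊥` and ascends along normal steps
of prime index holds for some subgroup of order `p ^ n`, for every `p ^ n` dividing the order. -/
theorem exists_card_pow {Q : Type*} [Group Q] [Finite Q] (Good : Subgroup Q → Prop)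
    (h0 : Good ⊥)
    (step : ∀ H' H : Subgroup Q, H' ≤ H → (H'.subgroupOf H).Normal → (H'.relIndex H).Prime →
      Good H' → Good H) (p : ℕ) [hp : Fact p.Prime] :
    ∀ n : ℕ, p ^ n ∣ Nat.card Q → ∃ H : Subgroup Q, Nat.card H = p ^ n ∧ Good H := by
  intro n
  induction n with
  | zero =>
    intro _
    exact ⟨⊥, by simp, h0⟩
  | succ n ih =>
    intro hdvd
    obtain ⟨H, hH, hgood⟩ := ih ((pow_dvd_pow p n.le_succ).trans hdvd)
    obtain ⟨K, hK, hHK⟩ := Sylow.exists_subgroup_card_pow_succ hdvd hH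
    have hcard : Nat.card (H.subgroupOf K) = p ^ n := by
      rw [Nat.card_congr (Subgroup.subgroupOfEquivOfLe hHK).toEquiv, hH]
    have hidx : (H.subgroupOf K).index = p := by
      have h1 := (H.subgroupOf K).index_mul_card
      rw [hcard, hK, pow_succ, mul_comm] at h1
      exact Nat.eq_of_mul_eq_mul_left (pow_pos hp.out.pos n) h1
    have hnormal : (H.subgroupOf K).Normal := by
      apply Subgroup.normal_of_index_eq_minFac_card
      rw [hidx, hK, Nat.pow_minFac n.succ_ne_zero, hp.out.minFac_eq]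
    exact ⟨K, hK, step H K hHK hnormal (by rw [Subgroup.relIndex, hidx]; exact hp.out) hgood⟩

/-- for every prime `p` there is a good subgroup of index prime to `p`. -/
theorem exists_index_not_dvd {Q : Type*} [Group Q] [Finite Q] (Good : Subgroup Q → Prop)
    (h0 : Good ⊥)
    (step : ∀ H' H : Subgroup Q, H' ≤ H → (H'.subgroupOf H).Normal → (H'.relIndex H).Prime →
      Good H' → Good H) (p : ℕ) (hp : p.Prime) :
    ∃ H : Subgroup Q, Good H ∧ ¬ p ∣ H.index := by
  haveI : Fact p.Prime := ⟨hp⟩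
  obtain ⟨H, hH, hgood⟩ := exists_card_pow Good h0 step p ((Nat.card Q).factorization p)
    (Nat.ordProj_dvd _ _)
  refine ⟨H, hgood, ?_⟩
  have h1 := H.index_mul_card
  rw [hH] at h1
  have h2 : H.index = Nat.card Q / p ^ (Nat.card Q).factorization p :=
    (Nat.div_eq_of_eq_mul_left (pow_pos hp.pos _) h1.symm).symm
  rw [h2]
  exact Nat.not_dvd_ordCompl hp Nat.card_pos.ne'

/-- a subgroup of `ℤ` containing, for every prime `p`, an integer prime to `p`, contains `1`. -/
theorem one_mem_of_forall_prime (Mult : AddSubgroup ℤ)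
    (h : ∀ p : ℕ, p.Prime → ∃ m : ℕ, (m : ℤ) ∈ Mult ∧ ¬ p ∣ m) : (1 : ℤ) ∈ Mult := by
  obtain ⟨a, rfl⟩ := Int.subgroup_cyclic Mult
  have hdvd : ∀ m : ℤ, m ∈ AddSubgroup.closure {a} → a ∣ m := by
    intro m hm
    obtain ⟨k, rfl⟩ := AddSubgroup.mem_closure_singleton.mp hm
    exact ⟨k, by rw [smul_eq_mul, mul_comm]⟩
  have h1 : a.natAbs = 1 := by
    by_contra hne
    obtain ⟨p, hp, hpa⟩ := Nat.exists_prime_and_dvd hne
    obtain ⟨m, hm, hpm⟩ := h p hp
    apply hpm
    have := hdvd m hm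
    exact hpa.trans (Int.natAbs_dvd_natAbs.mpr this)
  rcases Int.natAbs_eq a with h2 | h2
  · rw [h1] at h2
    rw [h2]
    exact AddSubgroup.subset_closure rfl
  · rw [h1] at h2
    rw [h2]
    have : (-1 : ℤ) ∈ AddSubgroup.closure {(-1 : ℤ)} := AddSubgroup.subset_closure rfl
    simpa using neg_mem this

end SylowTower

variable {G : Type} [Group G]

section C08

open SylowTower

/-- `Good W` : "the restriction to `W` of a given class is good"; `Mult` : the integers `n` such
that `n •` the class is good.  If goodness ascends along normal steps of prime index and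
`Good W → [U:W] ∈ Mult`, then `1 ∈ Mult`. -/
theorem sylow_tower {U V : Subgroup G} (hVU : V ≤ U) (hn : (V.subgroupOf U).Normal)
    (hfin : V.relIndex U ≠ 0) (Good : Subgroup G → Prop) (Mult : AddSubgroup ℤ) (h0 : Good V)
    (step : ∀ W' W : Subgroup G, V ≤ W' → W' ≤ W → W ≤ U → (W'.subgroupOf W).Normal →
      (W'.relIndex W).Prime → Good W' → Good W)
    (desc : ∀ W : Subgroup G, V ≤ W → W ≤ U → Good W → ((W.relIndex U : ℕ) : ℤ) ∈ Mult) :
    (1 : ℤ) ∈ Mult := by
  set N : Subgroup U := V.subgroupOf U with hN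
  let π : U →* U ⧸ N := QuotientGroup.mk' N
  have hπ : Function.Surjective π := QuotientGroup.mk'_surjective N
  haveI : Finite (U ⧸ N) := Nat.finite_of_card_ne_zero hfin
  let Wf : Subgroup (U ⧸ N) → Subgroup G := fun H => (H.comap π).map U.subtype
  have hmem : ∀ (H : Subgroup (U ⧸ N)) (g : G), g ∈ Wf H ↔ ∃ hg : g ∈ U, π ⟨g, hg⟩ ∈ H := by
    intro H g
    constructor
    · rintro ⟨u, hu, rfl⟩
      exact ⟨u.2, hu⟩
    · rintro ⟨hg, h⟩
      exact ⟨⟨g, hg⟩, h, rfl⟩
  have hleU : ∀ H, Wf H ≤ U := fun H => Subgroup.map_subtype_le _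
  have hVle : ∀ H, V ≤ Wf H := by
    intro H v hv
    refine (hmem H v).mpr ⟨hVU hv, ?_⟩
    have : π ⟨v, hVU hv⟩ = 1 := (QuotientGroup.eq_one_iff _).mpr (Subgroup.mem_subgroupOf.mpr hv)
    rw [this]
    exact one_mem H
  have hbot : Wf ⊥ = V := by
    ext g
    rw [hmem]
    constructor
    · rintro ⟨hg, h⟩
      exact Subgroup.mem_subgroupOf.mp ((QuotientGroup.eq_one_iff _).mp (Subgroup.mem_bot.mp h))
    · intro hg
      exact ⟨hVU hg, Subgroup.mem_bot.mpr
        ((QuotientGroup.eq_one_iff _).mpr (Subgroup.mem_subgroupOf.mpr hg))⟩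
  have htop : Wf ⊤ = U := by
    ext g
    rw [hmem]
    exact ⟨fun ⟨hg, _⟩ => hg, fun hg => ⟨hg, Subgroup.mem_top _⟩⟩
  have hmono : ∀ H' H : Subgroup (U ⧸ N), H' ≤ H → Wf H' ≤ Wf H := fun H' H h =>
    Subgroup.map_mono (Subgroup.comap_mono h)
  have hrel : ∀ H' H : Subgroup (U ⧸ N), (Wf H').relIndex (Wf H) = H'.relIndex H := by
    intro H' H
    show ((H'.comap π).map U.subtype).relIndex ((H.comap π).map U.subtype) = _
    rw [Subgroup.relIndex_map_map_of_injective _ _ U.subtype_injective, Subgroup.relIndex_comap,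
      Subgroup.map_comap_eq_self_of_surjective hπ]
  have hnorm : ∀ H' H : Subgroup (U ⧸ N), H' ≤ H → (H'.subgroupOf H).Normal →
      ((Wf H').subgroupOf (Wf H)).Normal := by
    intro H' H hle hnor
    rw [Subgroup.normal_subgroupOf_iff (hmono H' H hle)]
    rw [Subgroup.normal_subgroupOf_iff hle] at hnor
    intro h k hh hk
    obtain ⟨hhU, hh'⟩ := (hmem H' h).mp hh
    obtain ⟨hkU, hk'⟩ := (hmem H k).mp hk
    refine (hmem H' _).mpr ⟨U.mul_mem (U.mul_mem hkU hhU) (U.inv_mem hkU), ?_⟩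
    have e : (⟨k * h * k⁻¹, U.mul_mem (U.mul_mem hkU hhU) (U.inv_mem hkU)⟩ : U) =
        ⟨k, hkU⟩ * ⟨h, hhU⟩ * (⟨k, hkU⟩ : U)⁻¹ := rfl
    rw [e, map_mul, map_mul, map_inv]
    exact hnor _ _ hh' hk'
  apply one_mem_of_forall_prime
  intro p hp
  obtain ⟨H, hgood, hidx⟩ := exists_index_not_dvd (fun H => Good (Wf H)) (by rw [hbot]; exact h0)
    (fun H' H hle hnor hpr hg =>
      step (Wf H') (Wf H) (hVle H') (hmono H' H hle) (hleU H) (hnorm H' H hle hnor)
        (by rw [hrel]; exact hpr) hg) p hp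
  refine ⟨H.index, ?_, hidx⟩
  have := desc (Wf H) (hVle H) (hleU H) hgood
  rwa [← htop, hrel, Subgroup.relIndex_top_right] at this

end C08

end Fermat.Agent.S55
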