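/-
S55 / block LOC-C, task LOC-L04 : THEOREM T2, every class of `Br(U)` is unramified.
-/
import Fermat.Agent.S55.Loc.Coh.Step
import Fermat.Agent.S55.Loc.Coh.SylowTower

set_option autoImplicit false

namespace Fermat.Agent.S55.Loc

variable {Γ : Type} [Group Γ] {𝓝 : LevelSys Γ} {A : Type} [AddCommGroup A] [DistribMulAction Γ A]

namespace LocalInput

variable (I : LocalInput 𝓝 A)

variable [Smooth 𝓝 A]

theorem BrUr_eq_top (h4 : FourTermHyp Γ A) (he : EffaceHyp 𝓝 A 1) {U : Subgroup Γ}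
    (hU : 𝓝.IsOpen U) : I.BrUr U = ⊤ := by
  rw [eq_top_iff]
  intro c _
  obtain ⟨N, hN, hNU, hres⟩ := he U hU c
  have hNo : 𝓝.IsOpen N := ⟨N, hN, le_rfl⟩
  have hNn : N.Normal := 𝓝.normal N hN
  have hfin : N.relIndex U ≠ 0 := by
    intro h0
    have := Subgroup.relIndex_mul_index hNU
    rw [h0, zero_mul] at this
    exact hNo.finiteIndex.index_ne_zero this.symm
  let Mult : AddSubgroup ℤ :=
    { carrier := {n | n • c ∈ I.BrUr U}
      zero_mem' := by
        show (0 : ℤ) • c ∈ I.BrUr U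
        rw [zero_smul]; exact zero_mem _
      add_mem' := by
        intro a b ha hb
        show (a + b) • c ∈ I.BrUr U
        rw [add_smul]; exact add_mem ha hb
      neg_mem' := by
        intro a ha
        show (-a) • c ∈ I.BrUr U
        rw [neg_smul]; exact neg_mem ha }
  have h1 : (1 : ℤ) ∈ Mult := by
    refine sylow_tower hNU inferInstance hfin
      (fun W => ∀ hW : W ≤ U, resBr 𝓝 A hW c ∈ I.BrUr W) Mult ?_ ?_ ?_
    · intro hW
      have : resBr 𝓝 A hW c = 0 := hres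
      rw [this]; exact zero_mem _
    · intro W' W hNW' hW'W hWU hn hp hgood hW
      refine I.step h4 (hNo.mono hNW') hW'W hn hp _ ?_
      rw [resBr_resBr]
      exact hgood _
    · intro W hNW hWU hgood
      show ((W.relIndex U : ℕ) : ℤ) • c ∈ I.BrUr U
      rw [natCast_zsmul]
      exact I.desc (hNo.mono hNW) hWU c (hgood hWU)
  have h2 : (1 : ℤ) • c ∈ I.BrUr U := h1
  rwa [one_smul] at h2

theorem exists_eq_cupU (h4 : FourTermHyp Γ A) (he : EffaceHyp 𝓝 A 1) {U : Subgroup Γ}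
    (hU : 𝓝.IsOpen U) (c : Br 𝓝 A U) : ∃ (b : fixA A U) (r : QZ), c = cupU 𝓝 U b (I.ur r) :=
  (I.mem_BrUr_iff hU c).1 (by rw [I.BrUr_eq_top h4 he hU]; exact AddSubgroup.mem_top c)

end LocalInput

end Fermat.Agent.S55.Loc
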