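/-
S55 / block LOC-C, task LOC-L05a : the invariant map `H^2(Γ, A) ≃ ℚ/ℤ` of a `LocalInput`.
-/
import Fermat.Agent.S55.Loc.Coh.T2
import Fermat.Agent.S55.Loc.Coh.CupApi
import Fermat.Agent.S55.Coh.IndApi

set_option autoImplicit false

namespace Fermat.Agent.S55.Loc

variable {Γ : Type} [Group Γ] {𝓝 : LevelSys Γ} {A : Type} [AddCommGroup A] [DistribMulAction Γ A]

namespace LocalInput

variable (I : LocalInput 𝓝 A)

omit [DistribMulAction Γ A] [AddCommGroup A] in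
/-- The whole group is open. -/
theorem inv_isOpen_top (𝓝 : LevelSys Γ) : 𝓝.IsOpen (⊤ : Subgroup Γ) := by
  obtain ⟨N, hN⟩ := 𝓝.nonempty
  exact ⟨N, hN, le_top⟩

/-- An invariant element, regarded as an element fixed by `⊤`. -/
def inv_toFix (b : inv0 Γ A) : fixA A (⊤ : Subgroup Γ) := ⟨(b : A), fun u _ => mem_inv0.1 b.2 u⟩

@[simp] theorem inv_coe_toFix (b : inv0 Γ A) : (inv_toFix b : A) = (b : A) := rfl

/-- An element fixed by `⊤`, regarded as an invariant element. -/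
def inv_ofFixTop (b : fixA A (⊤ : Subgroup Γ)) : inv0 Γ A :=
  ⟨(b : A), mem_inv0.2 fun g => b.2 g (Subgroup.mem_top g)⟩

theorem inv_toFix_ofFixTop (b : fixA A (⊤ : Subgroup Γ)) : inv_toFix (inv_ofFixTop b) = b := rfl

theorem inv_map_const_eq_ofFix (b : inv0 Γ A) :
    inv0.map (IndMod.const (Γ ⧸ (⊤ : Subgroup Γ)) A) b = ofFix ⊤ (inv_toFix b) := by
  apply Subtype.ext
  ext x
  induction x using QuotientGroup.induction_on with
  | H y =>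
    rw [ofFix_apply_mk, inv_coe_toFix, mem_inv0.1 b.2 y]
    rfl

/-- `b ∪ δχ` in `Br(⊤)` is the image of `b ∪ δχ` in `H^2(Γ, A)`. -/
theorem inv_cupU_top (b : inv0 Γ A) (χ : Chr 𝓝) :
    cupU 𝓝 ⊤ (inv_toFix b) χ = Hsm.map (IndMod.const (Γ ⧸ (⊤ : Subgroup Γ)) A) 2 (cup 𝓝 b χ) := by
  rw [map_cup, inv_map_const_eq_ofFix]
  rfl

theorem inv_w_top (b : inv0 Γ A) : I.w ⊤ (inv_toFix b : A) = I.v (b : A) :=
  I.w_top (inv_toFix b).2

variable [Smooth 𝓝 A]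

/-- `r ↦ π₀ ∪ δχ_r ∈ H^2(Γ, A)` -/
noncomputable def fund (π0 : inv0 Γ A) : QZ →+ Hsm 𝓝 A 2 := (cup 𝓝 π0).comp I.ur

/-- `H^2(Γ, A) = Br(⊤)` -/
theorem map_const_top_bijective (n : ℕ) :
    Function.Bijective (Hsm.map (𝓝 := 𝓝) (IndMod.const (Γ ⧸ (⊤ : Subgroup Γ)) A) n) := by
  apply Hsm.map_bijective
  refine ⟨IndMod.const_injective, fun f => ⟨f ((1 : Γ) : Γ ⧸ (⊤ : Subgroup Γ)), ?_⟩⟩
  ext x
  have hx : x = ((1 : Γ) : Γ ⧸ (⊤ : Subgroup Γ)) :=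
    QuotientGroup.subsingleton_quotient_top.elim _ _
  rw [hx]
  rfl

theorem cup_ur_eq_fund (π0 : inv0 Γ A) (h0 : I.v (π0 : A) = 1) (b : inv0 Γ A) (r : QZ) :
    cup 𝓝 b (I.ur r) = I.fund π0 (I.v (b : A) • r) := by
  apply (map_const_top_bijective (𝓝 := 𝓝) (A := A) 2).1
  show _ = Hsm.map (IndMod.const (Γ ⧸ (⊤ : Subgroup Γ)) A) 2 (cup 𝓝 π0 (I.ur (I.v (b : A) • r)))
  rw [← inv_cupU_top, ← inv_cupU_top]
  apply I.cupU_ur_eq_cupU_ur (inv_isOpen_top 𝓝)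
  rw [inv_w_top, inv_w_top, h0, one_smul]

theorem fund_bijective (h4 : FourTermHyp Γ A) (he : EffaceHyp 𝓝 A 1) (π0 : inv0 Γ A)
    (h0 : I.v (π0 : A) = 1) : Function.Bijective (I.fund π0) := by
  constructor
  · rw [injective_iff_map_eq_zero]
    intro r hr
    have h1 : cupU 𝓝 ⊤ (inv_toFix π0) (I.ur r) = 0 := by
      rw [inv_cupU_top]
      have : cup 𝓝 π0 (I.ur r) = 0 := hr
      rw [this, map_zero]
    have h2 := (I.cupU_ur_eq_zero_iff h4 (inv_isOpen_top 𝓝) _ r).1 h1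
    rwa [inv_w_top, h0, one_smul] at h2
  · intro c
    obtain ⟨b, r, hbr⟩ := I.exists_eq_cupU h4 he (inv_isOpen_top 𝓝)
      (Hsm.map (IndMod.const (Γ ⧸ (⊤ : Subgroup Γ)) A) 2 c)
    refine ⟨I.v ((inv_ofFixTop b : inv0 Γ A) : A) • r, ?_⟩
    rw [← I.cup_ur_eq_fund π0 h0]
    apply (map_const_top_bijective (𝓝 := 𝓝) (A := A) 2).1
    rw [hbr, ← inv_cupU_top, inv_toFix_ofFixTop]

/-- THE INVARIANT MAP `H^2(Γ, A) ≃ ℚ/ℤ`. -/
noncomputable def inv (h4 : FourTermHyp Γ A) (he : EffaceHyp 𝓝 A 1) : Hsm 𝓝 A 2 ≃+ QZ :=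
  (AddEquiv.ofBijective (I.fund I.exists_unif0.choose)
    (I.fund_bijective h4 he _ I.exists_unif0.choose_spec)).symm

theorem inv_cup (h4 : FourTermHyp Γ A) (he : EffaceHyp 𝓝 A 1) (b : inv0 Γ A) (r : QZ) :
    I.inv h4 he (cup 𝓝 b (I.ur r)) = I.v (b : A) • r := by
  rw [I.cup_ur_eq_fund _ I.exists_unif0.choose_spec]
  exact (AddEquiv.ofBijective _ _).symm_apply_apply _

end LocalInput

end Fermat.Agent.S55.Loc
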