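/-
S55 / block LOC-C, task LOC-L05b (helper198): the invariant map `invX` for finite `Γ`-sets:
formulas, compatibility with push/pull, bijectivity for transitive sets.
-/
import Fermat.Agent.S55.Loc.Coh.Inv
import Fermat.Agent.S55.Loc.Coh.T2
import Fermat.Agent.S55.Loc.Coh.T1
import Fermat.Agent.S55.Loc.Coh.W
import Fermat.Agent.S55.Loc.Coh.FixNorm
import Fermat.Agent.S55.Loc.Coh.QZ
import Fermat.Agent.S55.Loc.Coh.CupApi
import Fermat.Agent.S55.Coh.IndApi

set_option autoImplicit false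

namespace Fermat.Agent.S55.Loc

variable {Γ : Type} [Group Γ] {𝓝 : LevelSys Γ} {A : Type} [AddCommGroup A] [DistribMulAction Γ A]

namespace LocalInput

variable (I : LocalInput 𝓝 A)

variable [Smooth 𝓝 A]

/-- `inv_X = inv ∘ (sum_X)_*` for a finite `Γ`-set `X`. -/
noncomputable def invX (h4 : FourTermHyp Γ A) (he : EffaceHyp 𝓝 A 1) (X : Type) [MulAction Γ X]
    [Finite X] : Hsm 𝓝 (IndMod X A) 2 →+ QZ :=
  (I.inv h4 he : Hsm 𝓝 A 2 →+ QZ).comp (Hsm.map (IndMod.sum X A) 2)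

theorem invX_cup (h4 : FourTermHyp Γ A) (he : EffaceHyp 𝓝 A 1) (X : Type) [MulAction Γ X]
    [Finite X] (a : inv0 Γ (IndMod X A)) (r : QZ) :
    I.invX h4 he X (cup 𝓝 a (I.ur r)) = I.v (IndMod.sum (G := Γ) X A (a : IndMod X A)) • r := by
  show I.inv h4 he (Hsm.map (IndMod.sum X A) 2 (cup 𝓝 a (I.ur r))) = _
  rw [map_cup, inv_cup, inv0.coe_map]

theorem invX_cupU (h4 : FourTermHyp Γ A) (he : EffaceHyp 𝓝 A 1) {U : Subgroup Γ}
    [Finite (Γ ⧸ U)] (a : fixA A U) (r : QZ) :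
    I.invX h4 he (Γ ⧸ U) (cupU 𝓝 U a (I.ur r)) = I.w U a • r := by
  show I.invX h4 he (Γ ⧸ U) (cup 𝓝 (ofFix U a) (I.ur r)) = _
  rw [invX_cup, sum_ofFix]
  rfl

/-- L3 for coset spaces -/
theorem invX_coset_bijective (h4 : FourTermHyp Γ A) (he : EffaceHyp 𝓝 A 1) {U : Subgroup Γ}
    (hU : 𝓝.IsOpen U) [Finite (Γ ⧸ U)] : Function.Bijective (I.invX h4 he (Γ ⧸ U)) := by
  constructor
  · rw [injective_iff_map_eq_zero]
    intro x hx
    obtain ⟨b, r, rfl⟩ := I.exists_eq_cupU h4 he hU x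
    rw [invX_cupU] at hx
    exact (I.cupU_ur_eq_zero_iff h4 hU b r).mpr hx
  · intro r
    obtain ⟨π, hπ, hpos, -, -⟩ := I.exists_unif hU
    obtain ⟨s, hs⟩ := QZ.exists_zsmul_eq (I.w U π) hpos.ne' r
    exact ⟨cupU 𝓝 U ⟨π, hπ⟩ (I.ur s), by rw [invX_cupU, hs]⟩

theorem invX_push (h4 : FourTermHyp Γ A) (he : EffaceHyp 𝓝 A 1) {X Y : Type} [MulAction Γ X]
    [MulAction Γ Y] [Finite X] [Finite Y] (u : Y →[Γ] X) (y : Hsm 𝓝 (IndMod Y A) 2) :
    I.invX h4 he X (Hsm.map (IndMod.push A u) 2 y) = I.invX h4 he Y y := by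
  show I.inv h4 he (Hsm.map (IndMod.sum X A) 2 (Hsm.map (IndMod.push A u) 2 y)) =
    I.inv h4 he (Hsm.map (IndMod.sum Y A) 2 y)
  rw [← Hsm.map_comp' (χ := IndMod.sum Y A) (fun f => (IndMod.sum_push u f).symm)]

theorem invX_pull (h4 : FourTermHyp Γ A) (he : EffaceHyp 𝓝 A 1) {X Y : Type} [MulAction Γ X]
    [MulAction Γ Y] [Finite X] [Finite Y] (u : Y →[Γ] X) (m : ℕ)
    (hm : ∀ x, Nat.card {y // u y = x} = m) (x : Hsm 𝓝 (IndMod X A) 2) :
    I.invX h4 he Y (Hsm.map (IndMod.pull A u) 2 x) = m • I.invX h4 he X x := by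
  rw [← invX_push I h4 he u, Hsm.map_push_pull u m hm, map_nsmul]

/-- L3 : for a finite smooth TRANSITIVE `Γ`-set -/
theorem invX_bijective (h4 : FourTermHyp Γ A) (he : EffaceHyp 𝓝 A 1) (X : Type) [MulAction Γ X]
    [Finite X] [SmoothSet 𝓝 X] [MulAction.IsPretransitive Γ X] [Nonempty X] :
    Function.Bijective (I.invX h4 he X) := by
  obtain ⟨x₀⟩ := ‹Nonempty X›
  set U : Subgroup Γ := MulAction.stabilizer Γ x₀ with hUdef
  have hU : 𝓝.IsOpen U := SmoothSet.isOpen_stabilizer 𝓝 x₀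
  let e : (Γ ⧸ U) →[Γ] X := cosetToSet U x₀ fun u hu => hu
  have hinj : Function.Injective e := by
    intro a b
    induction a using QuotientGroup.induction_on with
    | H a =>
      induction b using QuotientGroup.induction_on with
      | H b =>
        intro h
        have h1 : a • x₀ = b • x₀ := h
        rw [QuotientGroup.eq]
        show (a⁻¹ * b) • x₀ = x₀
        rw [mul_smul, ← h1, inv_smul_smul]
  have hsurj : Function.Surjective e := by
    intro x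
    obtain ⟨g, hg⟩ := MulAction.exists_smul_eq Γ x₀ x
    exact ⟨(g : Γ ⧸ U), hg⟩
  have : Finite (Γ ⧸ U) := Finite.of_injective e hinj
  have hpull : Function.Bijective (IndMod.pull A e) :=
    ⟨IndMod.pull_injective hsurj, fun f => ⟨IndMod.push A e f, IndMod.pull_push_of_injective hinj f⟩⟩
  have hcard : ∀ x, Nat.card {y // e y = x} = 1 := by
    intro x
    obtain ⟨y, hy⟩ := hsurj x
    rw [Nat.card_eq_one_iff_unique]
    exact ⟨⟨fun a b => Subtype.ext (hinj (a.2.trans b.2.symm))⟩, ⟨⟨y, hy⟩⟩⟩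
  have hcomp : (I.invX h4 he X : Hsm 𝓝 (IndMod X A) 2 → QZ) =
      (I.invX h4 he (Γ ⧸ U)) ∘ (Hsm.map (𝓝 := 𝓝) (IndMod.pull A e) 2) := by
    funext x
    rw [Function.comp_apply, invX_pull I h4 he e 1 hcard, one_smul]
  rw [hcomp]
  exact (invX_coset_bijective I h4 he hU).comp (Hsm.map_bijective hpull 2)

end LocalInput

end Fermat.Agent.S55.Loc
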