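/-
S55 / block LOC-C : the abstract form of field `L6` of `LocPkg`.

For an "unramified" cyclic cover `(u : Y' → Y, σ, m)` of finite smooth `Γ`-sets, `Y` transitive,
`f = card Y`, with `φ ^ f • y' = σ^[k] y'` (`φ` a Frobenius), the double connecting map is
`θ_σ(a) = - a ∪ δχ_r`, `r = k / (m f)`.

* `L6.exists_kappa` : pure set theory, the function `κ (φ^i σ^j y') = i r + j / m`.
* `LocalInput.theta_eq_neg_cup_ur` : the formula.
-/
import Fermat.Agent.S55.Loc.Coh.LocDefs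
import Fermat.Agent.S55.Loc.Coh.ThetaCup
import Fermat.Agent.S55.Loc.Coh.QZ

set_option autoImplicit false

namespace Fermat.Agent.S55.Loc

namespace L6

variable {Γ : Type} [Group Γ] {Y Y' : Type} [MulAction Γ Y] [MulAction Γ Y']
  {u : Y' →[Γ] Y} {σ : Y' →[Γ] Y'} {m : ℕ}

theorem iterate_smul (σ : Y' →[Γ] Y') (j : ℕ) (g : Γ) (x : Y') :
    σ^[j] (g • x) = g • σ^[j] x := by
  induction j generalizing x with
  | zero => rfl
  | succ j ih => rw [Function.iterate_succ_apply, map_smul, ih, Function.iterate_succ_apply]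

/-- `σ^[a] x = σ^[b] x` implies `a ≡ b mod m`. -/
theorem modEq_of_iterate_eq (h : CyclicCover u σ m) {a b : ℕ} {x : Y'}
    (hab : σ^[a] x = σ^[b] x) : a ≡ b [MOD m] := by
  have hred : ∀ (c : ℕ), σ^[c] x = σ^[c % m] x := by
    intro c
    have hper : ∀ (t : ℕ) (z : Y'), σ^[m * t] z = z := by
      intro t z
      induction t with
      | zero => rfl
      | succ t ih => rw [Nat.mul_succ, Function.iterate_add_apply, h.pow, ih]
    conv_lhs => rw [← Nat.mod_add_div c m, Function.iterate_add_apply, hper]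
  rw [hred a, hred b] at hab
  exact h.iterate_inj (Nat.mod_lt _ h.pos) (Nat.mod_lt _ h.pos) hab

/-- `φ^(f l) y' = σ^(k l) y'`. -/
theorem pow_mul_smul {φ : Γ} {f k : ℕ} {y' : Y'} (hk : φ ^ f • y' = σ^[k] y') (l : ℕ) :
    φ ^ (f * l) • y' = σ^[k * l] y' := by
  induction l with
  | zero => simp
  | succ l ih =>
    rw [Nat.mul_succ, Nat.mul_succ, pow_add, mul_smul, hk, ← iterate_smul, ih,
      ← Function.iterate_add_apply, add_comm]

/-- The period of `φ` on a set on which it acts transitively. -/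
theorem card_dvd_of_pow_smul_eq [Finite Y] {φ : Γ} (y : Y) (hφ : ∀ z : Y, ∃ i : ℕ, z = φ ^ i • y)
    {d : ℕ} (hd : φ ^ d • y = y) : Nat.card Y ∣ d := by
  classical
  have htop : MulAction.orbit (Subgroup.zpowers φ) y = Set.univ := by
    ext z
    simp only [Set.mem_univ, iff_true]
    obtain ⟨i, rfl⟩ := hφ z
    exact ⟨⟨φ ^ i, Subgroup.npow_mem_zpowers φ i⟩, rfl⟩
  have : Fintype (MulAction.orbit (Subgroup.zpowers φ) y) := Fintype.ofFinite _
  have h1 : Function.minimalPeriod (φ • ·) y = Nat.card Y := by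
    rw [MulAction.minimalPeriod_eq_card, ← Nat.card_eq_fintype_card, htop, Nat.card_coe_set_eq,
      Set.ncard_univ]
  rw [← h1]
  apply Function.IsPeriodicPt.minimalPeriod_dvd
  show (φ • ·)^[d] y = y
  rw [smul_iterate]
  exact hd

/-- **The function `κ`** (pure set theory). -/
theorem exists_kappa {Q : Type} [AddCommGroup Q] [Finite Y] [MulAction.IsPretransitive Γ Y]
    (h : CyclicCover u σ m) (φ : Γ) (χ : Γ → Q) (r s : Q)
    (hgen : ∀ g : Γ, ∃ i : ℕ, (∀ x : Y', g • x = φ ^ i • x) ∧ χ g = i • r)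
    (y' : Y') (k : ℕ) (hk : φ ^ (Nat.card Y) • y' = σ^[k] y')
    (hs : m • s = 0) (hr : Nat.card Y • r = k • s) :
    ∃ κ : Y' → Q, (∀ x, κ (σ x) = κ x + s) ∧ ∀ (g : Γ) x, κ (g • x) = κ x + χ g := by
  classical
  set f := Nat.card Y with hf
  -- `φ` acts transitively on `Y`
  have htr : ∀ z : Y, ∃ i : ℕ, z = φ ^ i • u y' := by
    intro z
    obtain ⟨g, rfl⟩ := MulAction.exists_smul_eq Γ (u y') z
    obtain ⟨i, hi, -⟩ := hgen g
    exact ⟨i, by rw [← map_smul, ← map_smul, hi]⟩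
  -- every point is `φ^i σ^j y'`
  have hex : ∀ x : Y', ∃ ij : ℕ × ℕ, x = φ ^ ij.1 • σ^[ij.2] y' := by
    intro x
    obtain ⟨i, hi⟩ := htr (u x)
    obtain ⟨j, -, hj⟩ := h.trans (φ ^ i • y') x (by rw [map_smul, hi])
    exact ⟨(i, j), by rw [← hj, iterate_smul]⟩
  -- multiples of `s` only depend on the class mod `m`
  have hmod : ∀ {a b : ℕ}, a ≡ b [MOD m] → a • s = b • s := by
    intro a b hab
    have h1 : ∀ c : ℕ, c • s = (c % m) • s := by
      intro c
      conv_lhs => rw [← Nat.mod_add_div c m, add_nsmul, mul_comm m, mul_nsmul', hs, smul_zero,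
        add_zero]
    rw [h1 a, h1 b, hab]
  -- the key: well-definedness, in the case `i ≤ i'`
  have key0 : ∀ i d j j' : ℕ, φ ^ i • σ^[j] y' = φ ^ (i + d) • σ^[j'] y' →
      i • r + j • s = (i + d) • r + j' • s := by
    intro i d j j' he
    rw [pow_add, mul_smul] at he
    have he' : σ^[j] y' = φ ^ d • σ^[j'] y' := smul_left_cancel _ he
    have h1 : φ ^ d • u y' = u y' := by
      have := congrArg u he'
      rw [map_smul, h.map_iterate, h.map_iterate] at this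
      exact this.symm
    obtain ⟨l, rfl⟩ := card_dvd_of_pow_smul_eq (u y') htr h1
    rw [← iterate_smul, pow_mul_smul hk, ← Function.iterate_add_apply] at he'
    have h2 := hmod (modEq_of_iterate_eq h he')
    have h3 : (f * l) • r = (k * l) • s := by
      rw [mul_comm f l, mul_nsmul', hr, ← mul_nsmul', mul_comm l k]
    rw [h2, add_nsmul, add_nsmul, ← hf, h3]
    abel
  have key : ∀ i j i' j' : ℕ, φ ^ i • σ^[j] y' = φ ^ i' • σ^[j'] y' →
      i • r + j • s = i' • r + j' • s := by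
    intro i j i' j' he
    rcases le_total i i' with hle | hle
    · obtain ⟨d, rfl⟩ := Nat.exists_eq_add_of_le hle
      exact key0 i d j j' he
    · obtain ⟨d, rfl⟩ := Nat.exists_eq_add_of_le hle
      exact (key0 i' d j' j he.symm).symm
  choose ij hij using hex
  have hκ : ∀ i j : ℕ, (ij (φ ^ i • σ^[j] y')).1 • r + (ij (φ ^ i • σ^[j] y')).2 • s
      = i • r + j • s := fun i j => key _ _ _ _ (hij _).symm
  refine ⟨fun x => (ij x).1 • r + (ij x).2 • s, fun x => ?_, fun g x => ?_⟩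
  · have h1 : σ x = φ ^ (ij x).1 • σ^[(ij x).2 + 1] y' := by
      conv_lhs => rw [hij x, map_smul, ← Function.iterate_succ_apply' σ]
    show (ij (σ x)).1 • r + (ij (σ x)).2 • s = (ij x).1 • r + (ij x).2 • s + s
    rw [h1, hκ, add_nsmul, one_nsmul, add_assoc]
  · obtain ⟨i, hi, hχ⟩ := hgen g
    have h1 : g • x = φ ^ (i + (ij x).1) • σ^[(ij x).2] y' := by
      rw [hi]
      conv_lhs => rw [hij x, ← mul_smul, ← pow_add]
    show (ij (g • x)).1 • r + (ij (g • x)).2 • s = (ij x).1 • r + (ij x).2 • s + χ g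
    rw [h1, hκ, hχ, add_nsmul]
    abel

end L6

namespace LocalInput

variable {Γ : Type} [Group Γ] {𝓝 : LevelSys Γ} {A : Type} [AddCommGroup A] [DistribMulAction Γ A]
  [Smooth 𝓝 A]

/-- **Abstract L6.**  `φ` a Frobenius (`χ_r(φ) = r`), `J` a subgroup of the inertia group such that
`φ` and `J` generate `Γ` topologically; `(u : Y' → Y, σ, m)` a cyclic cover with `J` acting
trivially on `Y'`, `Y` transitive, `φ ^ card Y • y' = σ^[k] y'`.  Then
`θ_σ(a) = - a ∪ δ χ_{k/(m card Y)}`. -/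
theorem theta_eq_neg_cup_ur (I : LocalInput 𝓝 A) (φ : Γ) (hφ : ∀ r, I.chi r φ = r)
    (J : Subgroup Γ) (hJ : J ≤ I.inertia)
    (hdens : ∀ N ∈ 𝓝.carrier, ∀ g : Γ, ∃ i : ℕ, ∃ τ ∈ J, ∃ ν ∈ N, g = φ ^ i * τ * ν)
    {Y Y' : Type} [MulAction Γ Y] [MulAction Γ Y'] [Finite Y] [Finite Y'] [SmoothSet 𝓝 Y']
    [MulAction.IsPretransitive Γ Y] {u : Y' →[Γ] Y} {σ : Y' →[Γ] Y'} {m : ℕ}
    (h : CyclicCover u σ m) (hJY : ∀ τ ∈ J, ∀ y' : Y', τ • y' = y')
    (y' : Y') (k : ℕ) (hk : φ ^ (Nat.card Y) • y' = σ^[k] y') (a : inv0 Γ (IndMod Y A)) :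
    (h.fourTerm (A := A)).theta (𝓝 := 𝓝) 0 (Hsm.H0equiv.symm a) =
      - cup 𝓝 a (I.ur (toQZ ((k : ℚ) / ((m : ℚ) * (Nat.card Y : ℚ))))) := by
  set r : QZ := toQZ ((k : ℚ) / ((m : ℚ) * (Nat.card Y : ℚ))) with hr
  have hm : (m : ℚ) ≠ 0 := Nat.cast_ne_zero.2 h.pos.ne'
  have : Nonempty Y := ⟨u y'⟩
  have hf : (Nat.card Y : ℚ) ≠ 0 := Nat.cast_ne_zero.2 Nat.card_pos.ne'
  have hpow : ∀ i : ℕ, I.chi r (φ ^ i) = i • r := by
    intro i
    induction i with
    | zero =>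
      have h1 := I.chi_mul r 1 1
      rw [mul_one] at h1
      rw [pow_zero, zero_nsmul]
      exact add_eq_left.1 h1.symm
    | succ i ih => rw [pow_succ, I.chi_mul, ih, hφ, succ_nsmul]
  have hgen : ∀ g : Γ, ∃ i : ℕ, (∀ x : Y', g • x = φ ^ i • x) ∧ I.chi r g = i • r := by
    intro g
    obtain ⟨N₁, hN₁, h1⟩ := SmoothSet.exists_fix_all 𝓝 Y'
    obtain ⟨N₂, hN₂, h2⟩ := I.chi_level r
    obtain ⟨N, hN, hle⟩ := 𝓝.directed N₁ hN₁ N₂ hN₂
    obtain ⟨i, τ, hτ, ν, hν, rfl⟩ := hdens N hN g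
    refine ⟨i, fun x => ?_, ?_⟩
    · rw [mul_smul, mul_smul, h1 ν (hle hν).1, hJY τ hτ]
    · rw [I.chi_mul, I.chi_mul, hpow, h2 ν (hle hν).2, hJ hτ r, add_zero, add_zero]
  obtain ⟨κ, hκσ, hκg⟩ := L6.exists_kappa h φ (I.chi r) r (toQZ (1 / (m : ℚ))) hgen y' k hk
    (by
      rw [QZ.nsmul_toQZ, mul_one_div_cancel hm]
      exact QZ.toQZ_intCast 1)
    (by
      rw [hr, QZ.nsmul_toQZ, QZ.nsmul_toQZ]
      congr 1
      field_simp)
  exact theta_eq_neg_cup h _ (I.ur r) κ hκσ (fun g x => by rw [hκg, ev_ur]) a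

end LocalInput

end Fermat.Agent.S55.Loc
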