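/-
S55 / block LOC-C, task LOC-L06, core: `H^3(G, Map(G/U, A)) = 0` from
* the four term sequences of cyclic covers (`FourTermHyp`),
* effaceability in degree 3 (`EffaceHyp 𝓝 A 2`),
* torsion of `H^2`, Hilbert 90 for all open subgroups,
* injectivity of the corestrictions `Br(V) → Br(U)`.
Only landed COH files are used (Sylow chain `exists_sylow_chain`, `exists_cyclicCover_coset_prime`,
`Hsm.map_push_pull`, `FourTerm.map_injective_on_Ppart_of_zero`).  Owner: helper4.
-/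
import Fermat.Agent.S55.Loc.Coh.HypDefs
import Fermat.Agent.S55.Coh.SylowChain
import Fermat.Agent.S55.Coh.Coset
import Fermat.Agent.S55.Coh.IndApi

set_option autoImplicit false

namespace Fermat.Agent.S55.Loc

variable {G : Type} [Group G] {𝓝 : LevelSys G} {A : Type} [AddCommGroup A] [DistribMulAction G A]

/-- transitivity of the restriction maps in any degree -/
theorem h3core_pull_pull {W V U : Subgroup G} (h : W ≤ V) (h' : V ≤ U) (n : ℕ)
    (x : Hsm 𝓝 (IndMod (G ⧸ U) A) n) :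
    Hsm.map (IndMod.pull A (cosetMap h)) n (Hsm.map (IndMod.pull A (cosetMap h')) n x) =
      Hsm.map (IndMod.pull A (cosetMap (h.trans h'))) n x := by
  rw [← Hsm.map_comp]
  refine congrFun (congrArg _ (Hsm.map_congr (fun f => ?_) n)) x
  ext y
  show f (cosetMap h' (cosetMap h y)) = f (cosetMap (h.trans h') y)
  rw [cosetMap_cosetMap]

variable [Smooth 𝓝 A]

/-- one cyclic step of prime degree -/
theorem h3core_step (h4 : FourTermHyp G A)
    (ht : ∀ (W : Type) [AddCommGroup W] [DistribMulAction G W] [Smooth 𝓝 W] (w : Hsm 𝓝 W 2),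
      ∃ k : ℕ, 0 < k ∧ k • w = 0)
    (h90 : ∀ U : Subgroup G, 𝓝.IsOpen U → ∀ x : Hsm 𝓝 (IndMod (G ⧸ U) A) 1, x = 0)
    (hcor : ∀ (V U : Subgroup G) (h : V ≤ U) [Finite (G ⧸ V)], 𝓝.IsOpen V →
      Function.Injective (Hsm.map (𝓝 := 𝓝) (IndMod.push A (cosetMap h)) 2))
    {ℓ : ℕ} (hℓ : ℓ.Prime) {V U : Subgroup G} (h : V ≤ U) (hV : 𝓝.IsOpen V)
    (hnorm : ∀ g ∈ U, ∀ v ∈ V, g⁻¹ * v * g ∈ V) (hidx : V.relIndex U = ℓ)
    (x : Hsm 𝓝 (IndMod (G ⧸ U) A) 3)
    (hx : Hsm.map (IndMod.pull A (cosetMap h)) 3 x = 0) : x = 0 := by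
  have := hV.finiteIndex
  have hfinV : Finite (G ⧸ V) := Subgroup.finite_quotient_of_finiteIndex
  have := SmoothSet.quotient 𝓝 hV
  obtain ⟨s, -, hs, hc⟩ := exists_cyclicCover_coset_prime hℓ h hnorm hidx
  have hF := h4 (G ⧸ V) (G ⧸ U) (cosetMap h) (cosetRight V s hs) ℓ hc
  have hℓx : ℓ • x = 0 := by
    have h1 := Hsm.map_push_pull (𝓝 := 𝓝) (A := A) (cosetMap h) ℓ
      (fun y => (cosetMap_card_fiber h y).trans hidx) 3 x
    rw [hx, map_zero] at h1
    exact h1.symm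
  refine hF.map_injective_on_Ppart_of_zero (𝓝 := 𝓝) 0 hℓ (fun w => ht _ w)
    (fun z => ⟨1, one_pos, by rw [h90 U (hV.mono h) z, smul_zero]⟩) ?_ ?_ x
    (mem_Ppart_of_smul_eq_zero hℓx) hx
  · intro y _ hy
    have hy0 : y = 0 := hcor V U h hV (hy.trans (map_zero _).symm)
    exact ⟨0, zero_mem _, by rw [map_zero, hy0]⟩
  · intro z _
    exact ⟨0, by rw [map_zero, h90 U (hV.mono h) z]⟩

/-- `H^3(G, Map(G/U, A)) = 0`, core form. -/
theorem H3_eq_zero_core (h4 : FourTermHyp G A) (he' : EffaceHyp 𝓝 A 2)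
    (ht : ∀ (W : Type) [AddCommGroup W] [DistribMulAction G W] [Smooth 𝓝 W] (w : Hsm 𝓝 W 2),
      ∃ k : ℕ, 0 < k ∧ k • w = 0)
    (h90 : ∀ U : Subgroup G, 𝓝.IsOpen U → ∀ x : Hsm 𝓝 (IndMod (G ⧸ U) A) 1, x = 0)
    (hcor : ∀ (V U : Subgroup G) (h : V ≤ U) [Finite (G ⧸ V)], 𝓝.IsOpen V →
      Function.Injective (Hsm.map (𝓝 := 𝓝) (IndMod.push A (cosetMap h)) 2))
    {U : Subgroup G} (hU : 𝓝.IsOpen U) (x : Hsm 𝓝 (IndMod (G ⧸ U) A) 3) : x = 0 := by
  obtain ⟨N, hN, hNU, hres⟩ := he' U hU x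
  have hNn := 𝓝.normal N hN
  have hNf := 𝓝.finiteIndex N hN
  have hNo : 𝓝.IsOpen N := LevelSys.isOpen_of_mem hN
  -- for every prime `p` some integer prime to `p` kills `x`
  have key : ∀ p : ℕ, p.Prime → ∃ m : ℕ, m.Coprime p ∧ m • x = 0 := by
    intro p hp
    obtain ⟨k, Q, hQ0, hQmono, hQk, hcop, hQstep⟩ := exists_sylow_chain hp hNU
    have hNQ : ∀ i, N ≤ Q i := by
      intro i
      induction i with
      | zero => rw [hQ0]
      | succ i ih => exact ih.trans (hQmono i)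
    have hQle : ∀ i, i ≤ k → Q i ≤ U := by
      intro i hi
      obtain ⟨j, rfl⟩ := Nat.exists_eq_add_of_le hi
      clear hi hcop hQstep
      induction j with
      | zero => exact hQk
      | succ j ih => exact ih ((hQmono (i + j)).trans hQk)
    have hvan : ∀ i (hi : i ≤ k), Hsm.map (IndMod.pull A (cosetMap (hQle i hi))) 3 x = 0 := by
      intro i
      induction i with
      | zero =>
        intro hi
        have e : ∀ (W : Subgroup G) (hW : W ≤ U), W = N →
            Hsm.map (IndMod.pull A (cosetMap hW)) 3 x = 0 := by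
          rintro W hW rfl
          exact hres
        exact e _ _ hQ0
      | succ i ih =>
        intro hi
        obtain ⟨hidx, hnorm⟩ := hQstep i hi
        refine h3core_step h4 ht h90 hcor hp (hQmono i) (hNo.mono (hNQ i)) hnorm hidx _ ?_
        rw [h3core_pull_pull]
        exact ih (by omega)
    have := (hNo.mono (hNQ k)).finiteIndex
    have hfin : Finite (G ⧸ Q k) := Subgroup.finite_quotient_of_finiteIndex
    refine ⟨(Q k).relIndex U, hcop, ?_⟩
    have h1 := Hsm.map_push_pull (𝓝 := 𝓝) (A := A) (cosetMap hQk) ((Q k).relIndex U)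
      (cosetMap_card_fiber hQk) 3 x
    rw [hvan k le_rfl, map_zero] at h1
    exact h1.symm
  by_contra hx
  have hd : addOrderOf x ≠ 1 := fun h => hx (AddMonoid.addOrderOf_eq_one_iff.1 h)
  obtain ⟨m, hm, hmx⟩ := key _ (Nat.minFac_prime hd)
  have h1 : (addOrderOf x).minFac ∣ m :=
    (Nat.minFac_dvd _).trans (addOrderOf_dvd_of_nsmul_eq_zero hmx)
  have h2 := Nat.Coprime.eq_one_of_dvd hm.symm h1
  exact (Nat.minFac_prime hd).one_lt.ne' h2

end Fermat.Agent.S55.Loc
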