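/-
S55 / block LOC-C, task LOC-L06 : `H^3(Γ, Map(Γ/U, A)) = 0`.  Owner: helper4.
-/
import Fermat.Agent.S55.Loc.Coh.H3Core
import Fermat.Agent.S55.Loc.Coh.InvX

set_option autoImplicit false

namespace Fermat.Agent.S55.Loc

variable {Γ : Type} [Group Γ] {𝓝 : LevelSys Γ} {A : Type} [AddCommGroup A] [DistribMulAction Γ A]

namespace LocalInput

variable (I : LocalInput 𝓝 A)

variable [Smooth 𝓝 A]

include I in
theorem H3_eq_zero (h4 : FourTermHyp Γ A) (he : EffaceHyp 𝓝 A 1) (he' : EffaceHyp 𝓝 A 2)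
    (ht : ∀ (W : Type) [AddCommGroup W] [DistribMulAction Γ W] [Smooth 𝓝 W] (w : Hsm 𝓝 W 2),
      ∃ k : ℕ, 0 < k ∧ k • w = 0)
    {U : Subgroup Γ} (hU : 𝓝.IsOpen U) (x : Hsm 𝓝 (IndMod (Γ ⧸ U) A) 3) : x = 0 := by
  refine H3_eq_zero_core h4 he' ht I.h90 ?_ hU x
  intro V U h _ hV y y' hyy'
  have := (hV.mono h).finiteIndex
  have hfinU : Finite (Γ ⧸ U) := Subgroup.finite_quotient_of_finiteIndex
  apply (I.invX_coset_bijective h4 he hV).1
  rw [← I.invX_push h4 he (cosetMap h) y, ← I.invX_push h4 he (cosetMap h) y', hyy']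

end LocalInput

end Fermat.Agent.S55.Loc
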