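/-
S55 / block LOC-C, node LOC-L07 (owner helper116): the Kummer sequence `0 → A[p] → A → A → 0` and its
consequences in degrees 2 and 3.
-/
import Fermat.Agent.S55.Arith.Defs
import Fermat.Agent.S55.Coh.IndApi
import Fermat.Agent.S55.Coh.LESExact

set_option autoImplicit false

namespace Fermat.Agent.S55.Loc

section L07

variable {G : Type} [Group G] {𝓝 : LevelSys G} {A : Type} [AddCommGroup A] [DistribMulAction G A]
  [Smooth 𝓝 A]

/-- multiplication by `p` -/
def mulP (G : Type) [Group G] (A : Type) [AddCommGroup A] [DistribMulAction G A] (p : ℕ) :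
    A →+[G] A where
  toFun a := p • a
  map_smul' g a := (smul_comm g p a).symm
  map_zero' := smul_zero p
  map_add' a b := smul_add p a b

omit [Smooth 𝓝 A] in
theorem mulP_apply (p : ℕ) (a : A) : mulP G A p a = p • a := rfl

omit [Smooth 𝓝 A] in
theorem shortExact_kummer (p : ℕ) (hdiv : ∀ a : A, ∃ b : A, p • b = a) :
    ShortExact (torsPart G A p).inclG (mulP G A p) where
  inj := GSub.inclG_injective _
  exact := by
    intro b
    constructor
    · intro hb
      exact ⟨(torsPart G A p).mkMod b hb, rfl⟩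
    · rintro ⟨a, rfl⟩
      exact (torsPart G A p).incl_mem a
  surj := hdiv

omit [Smooth 𝓝 A] in
/-- `Map(X, p)` acts on cohomology as multiplication by `p`. -/
theorem map_mapCoeff_mulP (p : ℕ) (X : Type) [MulAction G X] (n : ℕ)
    (y : Hsm 𝓝 (IndMod X A) n) :
    Hsm.map (IndMod.mapCoeff X (mulP G A p)) n y = p • y :=
  Hsm.map_nsmul' p (fun _ => rfl) n y

/-- `H^3(Map(X, A[p])) = 0` if `H^2(Map(X,A))` is `p`-divisible and `H^3(Map(X,A))[p] = 0` -/
theorem H3_tors_eq_zero (p : ℕ) (hdiv : ∀ a : A, ∃ b : A, p • b = a) (X : Type) [MulAction G X]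
    [Finite X] [SmoothSet 𝓝 X]
    (h2 : ∀ y : Hsm 𝓝 (IndMod X A) 2, ∃ y', p • y' = y)
    (h3 : ∀ z : Hsm 𝓝 (IndMod X A) 3, p • z = 0 → z = 0)
    (x : Hsm 𝓝 (IndMod X (torsPart G A p).Mod) 3) : x = 0 := by
  have hS := IndMod.shortExact_mapCoeff X (shortExact_kummer (G := G) (A := A) p hdiv)
  -- the image of `x` in `H^3(Map(X,A))` is killed by `p`
  have h1 : Hsm.map (𝓝 := 𝓝) (IndMod.mapCoeff X (torsPart G A p).inclG) 3 x = 0 := by
    apply h3
    rw [← map_mapCoeff_mulP]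
    exact Hsm.map_map_eq_zero hS 3 x
  obtain ⟨y, rfl⟩ := (Hsm.exact_delta_map hS 2 x).1 h1
  obtain ⟨y', rfl⟩ := h2 y
  rw [← map_mapCoeff_mulP]
  exact Hsm.delta_map_eq_zero hS 2 y'

/-- `H^2(Map(X, A[p])) → H^2(Map(X,A))` is injective if `H^1(Map(X,A)) = 0` -/
theorem H2_tors_injective (p : ℕ) (hdiv : ∀ a : A, ∃ b : A, p • b = a) (X : Type) [MulAction G X]
    [Finite X] [SmoothSet 𝓝 X] (h1 : ∀ y : Hsm 𝓝 (IndMod X A) 1, y = 0) :
    Function.Injective (Hsm.map (𝓝 := 𝓝) (IndMod.mapCoeff X (torsPart G A p).inclG) 2) :=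
  Hsm.map_injective_of_zero
    (IndMod.shortExact_mapCoeff X (shortExact_kummer (G := G) (A := A) p hdiv)) 1 h1

/-- its image is the `p`-torsion -/
theorem H2_tors_range (p : ℕ) (hdiv : ∀ a : A, ∃ b : A, p • b = a) (X : Type) [MulAction G X]
    [Finite X] [SmoothSet 𝓝 X] (y : Hsm 𝓝 (IndMod X A) 2) :
    y ∈ Set.range (Hsm.map (𝓝 := 𝓝) (IndMod.mapCoeff X (torsPart G A p).inclG) 2) ↔ p • y = 0 := by
  have hS := IndMod.shortExact_mapCoeff X (shortExact_kummer (G := G) (A := A) p hdiv)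
  rw [← map_mapCoeff_mulP]
  exact ((Hsm.exact_map_map hS 2) y).symm

end L07

end Fermat.Agent.S55.Loc
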